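import Mathlib

/-!
# Elementary low degree cohomology of finite groups

Predicates `H1Zero` and `H2Zero` (vanishing of `H¹` and `H²`), `NormSurj` and `NormKer` (the two
Tate groups in degrees `0` and `-1` vanish) and `IsInduced`, with their transport along
isomorphisms. The main result `norm_props_of_pGroup` deduces the two norm properties for a
`p`-group from the vanishing of `H¹` and `H²` on all its subgroups.
-/

set_option autoImplicit false
set_option linter.unusedSectionVars false

noncomputable section

namespace Fermat.Agent.CFT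

open groupCohomology

/-- A character with `χ g = 1` splits its group along the powers of `g`. -/
theorem bijective_pow_mul {H : Type*} [Group H] {p : ℕ} [NeZero p]
    (χ : H →* Multiplicative (ZMod p)) {g : H} (hg : χ g = Multiplicative.ofAdd 1) :
    Function.Bijective fun x : Fin p × χ.ker => g ^ (x.1 : ℕ) * (x.2 : H) := by
  have hχ : ∀ x : Fin p × χ.ker,
      χ (g ^ (x.1 : ℕ) * x.2) = Multiplicative.ofAdd ((x.1 : ℕ) : ZMod p) := fun x => by
    rw [map_mul, map_pow, hg, MonoidHom.mem_ker.1 x.2.2, mul_one, ← ofAdd_nsmul, nsmul_one]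
  refine ⟨fun x y h => ?_, fun h => ?_⟩
  · have h1 : x.1 = y.1 := by
      have e := congrArg (fun z => (Multiplicative.toAdd (χ z)).val) h
      simp only [hχ, toAdd_ofAdd, ZMod.val_natCast, Nat.mod_eq_of_lt x.1.2,
        Nat.mod_eq_of_lt y.1.2] at e
      exact Fin.ext e
    exact Prod.ext h1 (Subtype.ext (by simpa [h1] using h))
  · refine ⟨(⟨_, ZMod.val_lt (Multiplicative.toAdd (χ h))⟩,
      ⟨(g ^ (Multiplicative.toAdd (χ h)).val)⁻¹ * h, ?_⟩), mul_inv_cancel_left _ _⟩
    rw [MonoidHom.mem_ker, map_mul, map_inv, map_pow, hg, ← ofAdd_nsmul, nsmul_one,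
      ZMod.natCast_zmod_val, ofAdd_toAdd, inv_mul_cancel]

variable (G : Type*) [Group G] (A : Type*) [AddCommGroup A] [DistribMulAction G A]

/-- Every `1`-cocycle is a coboundary. -/
def H1Zero : Prop := ∀ c : G → A, IsCocycle₁ c → IsCoboundary₁ c

/-- Every `2`-cocycle is a coboundary. -/
def H2Zero : Prop := ∀ c : G × G → A, IsCocycle₂ c → IsCoboundary₂ c

/-- The subgroup generated by the elements `g • a - a`. -/
def augSpan : AddSubgroup A := AddSubgroup.closure {x | ∃ (g : G) (a : A), g • a - a = x}

/-- The norm (sum over the group). -/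
def normSum [Fintype G] (a : A) : A := ∑ g : G, g • a

/-- Every invariant element is a norm. -/
def NormSurj [Fintype G] : Prop :=
  ∀ x : A, (∀ g : G, g • x = x) → ∃ a, normSum G A a = x

/-- Every element of norm zero lies in the augmentation span. -/
def NormKer [Fintype G] : Prop := ∀ a : A, normSum G A a = 0 → a ∈ augSpan G A

/-- A trivialisation of the cohomology: an endomorphism whose conjugates sum to the identity. -/
def IsInduced [Fintype G] : Prop :=
  ∃ T : A →+ A, ∀ a : A, ∑ g : G, g • T (g⁻¹ • a) = a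

variable {G A}

theorem smul_sub_mem_augSpan (g : G) (a : A) : g • a - a ∈ augSpan G A :=
  AddSubgroup.subset_closure ⟨g, a, rfl⟩

theorem smul_normSum [Fintype G] (h : G) (a : A) : h • normSum G A a = normSum G A a := by
  simp only [normSum, Finset.smul_sum, smul_smul]
  exact Fintype.sum_equiv (Equiv.mulLeft h) _ _ fun g => rfl

theorem normSum_smul [Fintype G] (h : G) (a : A) : normSum G A (h • a) = normSum G A a := by
  simp only [normSum, smul_smul]
  exact Fintype.sum_equiv (Equiv.mulRight h) _ _ fun g => rfl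

theorem normSum_add [Fintype G] (a b : A) :
    normSum G A (a + b) = normSum G A a + normSum G A b := by
  simp only [normSum, smul_add, Finset.sum_add_distrib]

theorem normSum_sub [Fintype G] (a b : A) :
    normSum G A (a - b) = normSum G A a - normSum G A b := by
  simp only [normSum, smul_sub, Finset.sum_sub_distrib]

theorem IsInduced.normSurj [Fintype G] (h : IsInduced G A) : NormSurj G A := by
  obtain ⟨T, hT⟩ := h
  intro x hx
  refine ⟨T x, ?_⟩
  conv_rhs => rw [← hT x]
  simp only [normSum, hx]

theorem IsInduced.h1Zero [Fintype G] (h : IsInduced G A) : H1Zero G A := by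
  obtain ⟨T, hT⟩ := h
  intro c hc
  refine ⟨-∑ g : G, g • T (g⁻¹ • c g), fun g => ?_⟩
  have key : g • ∑ x : G, x • T (x⁻¹ • c x) = ∑ x : G, x • T (x⁻¹ • c x) - c g := by
    calc g • ∑ x : G, x • T (x⁻¹ • c x)
        = ∑ x : G, (g * x) • T (x⁻¹ • c x) := by simp only [Finset.smul_sum, smul_smul]
      _ = ∑ x : G, x • T (x⁻¹ • (c x - c g)) := by
          refine Fintype.sum_equiv (Equiv.mulLeft g) _ _ fun x => ?_
          show (g * x) • T (x⁻¹ • c x) = (g * x) • T ((g * x)⁻¹ • (c (g * x) - c g))
          rw [hc g x, add_sub_cancel_right, smul_smul, mul_inv_rev, mul_assoc, inv_mul_cancel,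
            mul_one]
      _ = _ := by
          simp only [smul_sub, map_sub, Finset.sum_sub_distrib, hT (c g)]
  rw [smul_neg, key]
  abel

section Transport

variable {H : Type*} [Group H] [DistribMulAction H A]

theorem H1Zero.of_equiv (e : H ≃* G) (he : ∀ (h : H) (a : A), e h • a = h • a)
    (hG : H1Zero G A) : H1Zero H A := by
  intro c hc
  obtain ⟨x, hx⟩ := hG (fun g => c (e.symm g)) fun g g' => by
    show c (e.symm (g * g')) = g • c (e.symm g') + c (e.symm g)
    conv_rhs => rw [← e.apply_symm_apply g, he]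
    rw [map_mul, hc, e.symm_apply_apply]
  refine ⟨x, fun h => ?_⟩
  rw [← he, hx]
  simp only [e.symm_apply_apply]

theorem H2Zero.of_equiv (e : H ≃* G) (he : ∀ (h : H) (a : A), e h • a = h • a)
    (hG : H2Zero G A) : H2Zero H A := by
  intro c hc
  obtain ⟨x, hx⟩ := hG (fun g => c (e.symm g.1, e.symm g.2)) fun g g' g'' => by
    show c (e.symm (g * g'), e.symm g'') + c (e.symm g, e.symm g') =
      g • c (e.symm g', e.symm g'') + c (e.symm g, e.symm (g' * g''))
    conv_rhs => rw [← e.apply_symm_apply g, he]
    rw [map_mul, map_mul, hc, e.symm_apply_apply]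
  refine ⟨fun h => x (e h), fun h h' => ?_⟩
  have := hx (e h) (e h')
  simp only [e.symm_apply_apply] at this
  rw [← this]
  simp only [map_mul, he]

theorem normSum_equiv [Fintype G] [Fintype H] (e : H ≃* G)
    (he : ∀ (h : H) (a : A), e h • a = h • a) (a : A) : normSum H A a = normSum G A a :=
  Fintype.sum_equiv e.toEquiv _ _ fun h => (he h a).symm

theorem augSpan_equiv_le (e : H ≃* G) (he : ∀ (h : H) (a : A), e h • a = h • a) :
    augSpan G A ≤ augSpan H A := by
  refine (AddSubgroup.closure_le _).mpr ?_
  rintro _ ⟨g, a, rfl⟩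
  rw [← e.apply_symm_apply g, he]
  exact smul_sub_mem_augSpan _ _

theorem NormSurj.of_equiv [Fintype G] [Fintype H] (e : H ≃* G)
    (he : ∀ (h : H) (a : A), e h • a = h • a) (hG : NormSurj G A) : NormSurj H A := by
  intro x hx
  obtain ⟨a, ha⟩ := hG x fun g => by rw [← e.apply_symm_apply g, he]; exact hx _
  exact ⟨a, (normSum_equiv e he a).trans ha⟩

theorem NormKer.of_equiv [Fintype G] [Fintype H] (e : H ≃* G)
    (he : ∀ (h : H) (a : A), e h • a = h • a) (hG : NormKer G A) : NormKer H A := fun a ha =>
  augSpan_equiv_le e he (hG a ((normSum_equiv e he a).symm.trans ha))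

end Transport

theorem augSpan_subgroup_le (K : Subgroup G) : augSpan K A ≤ augSpan G A := by
  refine (AddSubgroup.closure_le _).mpr ?_
  rintro _ ⟨k, a, rfl⟩
  exact smul_sub_mem_augSpan (k : G) a

/-- Carry identity for addition of residues. -/
theorem carry_add (p a b c : ℕ) (hp : 0 < p) :
    ((a + b) % p + c) / p + (a + b) / p = (b + c) / p + (a + (b + c) % p) / p := by
  have h1 : (a + b + c) / p = ((a + b) % p + c) / p + (a + b) / p := by
    conv_lhs => rw [← Nat.mod_add_div (a + b) p]
    rw [show (a + b) % p + p * ((a + b) / p) + c = ((a + b) % p + c) + p * ((a + b) / p) by ring,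
      Nat.add_mul_div_left _ _ hp]
  have h2 : (a + b + c) / p = (b + c) / p + (a + (b + c) % p) / p := by
    conv_lhs => rw [show a + b + c = a + (b + c) by ring, ← Nat.mod_add_div (b + c) p]
    rw [show a + ((b + c) % p + p * ((b + c) / p)) = (a + (b + c) % p) + p * ((b + c) / p) by ring,
      Nat.add_mul_div_left _ _ hp, add_comm]
  omega

section PGroup

variable [Finite G] {p : ℕ} [hp : Fact p.Prime]

/-- A nontrivial `p`-group maps onto `ZMod p`. -/
theorem exists_hom_zmod (hG : IsPGroup p G) [Nontrivial G] :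
    ∃ χ : G →* Multiplicative (ZMod p), Function.Surjective χ := by
  obtain ⟨n, hn⟩ := IsPGroup.iff_card.mp hG
  have hn0 : n ≠ 0 := by
    rintro rfl
    rw [pow_zero] at hn
    exact (Finite.one_lt_card (α := G)).ne' hn
  obtain ⟨K, hK⟩ := Sylow.exists_subgroup_card_pow_prime p
    (hn ▸ pow_dvd_pow p (Nat.sub_le n 1) : p ^ (n - 1) ∣ Nat.card G)
  have hidx : K.index = p := by
    have := K.card_mul_index
    rw [hK, hn] at this
    conv_rhs at this => rw [show n = n - 1 + 1 by omega, pow_succ]
    exact Nat.eq_of_mul_eq_mul_left (pow_pos hp.out.pos _) this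
  have : K.Normal := Subgroup.normal_of_index_eq_minFac_card (by
    rw [hidx, hn, Nat.Prime.pow_minFac hp.out hn0])
  have hq : Nat.card (G ⧸ K) = Nat.card (Multiplicative (ZMod p)) := by
    rw [← Subgroup.index, hidx, Nat.card_congr Multiplicative.toAdd, Nat.card_zmod]
  have : IsCyclic (G ⧸ K) := isCyclic_of_prime_card (p := p) (by rw [← Subgroup.index, hidx])
  exact ⟨(mulEquivOfCyclicCardEq hq).toMonoidHom.comp (QuotientGroup.mk' K),
    (mulEquivOfCyclicCardEq hq).surjective.comp (QuotientGroup.mk'_surjective K)⟩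

/-- If all subgroups have trivial `H¹` and `H²`, then invariants are norms and norm zero elements
are in the augmentation span. -/
theorem norm_props_of_pGroup [Fintype G] (hG : IsPGroup p G)
    (h1 : ∀ H : Subgroup G, H1Zero H A) (h2 : ∀ H : Subgroup G, H2Zero H A) :
    NormSurj G A ∧ NormKer G A := by
  classical
  suffices H : ∀ (n : ℕ) (S : Subgroup G), Nat.card S = n →
      NormSurj S A ∧ NormKer S A by
    obtain ⟨hS, hK⟩ := H _ ⊤ rfl
    exact ⟨hS.of_equiv Subgroup.topEquiv.symm (fun _ _ => rfl),
      hK.of_equiv Subgroup.topEquiv.symm (fun _ _ => rfl)⟩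
  intro n
  induction n using Nat.strong_induction_on with
  | _ n ih =>
  intro S hn
  rcases subsingleton_or_nontrivial S with hs | hs
  · have hnorm : ∀ a : A, normSum S A a = a := fun a => by
      rw [normSum, Fintype.sum_subsingleton _ (1 : S), one_smul]
    exact ⟨fun x _ => ⟨x, hnorm x⟩, fun a ha => by
      rw [hnorm] at ha; rw [ha]; exact zero_mem _⟩
  obtain ⟨χ, hχ⟩ := exists_hom_zmod (hG.to_subgroup S)
  set K := χ.ker
  let i : S → ℕ := fun s => (Multiplicative.toAdd (χ s)).val
  have hi_lt : ∀ s, i s < p := fun s => ZMod.val_lt _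
  have hi_mul : ∀ s t, i (s * t) = (i s + i t) % p := fun s t => by
    simp only [i, map_mul, toAdd_mul, ZMod.val_add]
  have hmem : ∀ s, s ∈ K ↔ i s = 0 := fun s => by
    simp only [K, MonoidHom.mem_ker, i, ZMod.val_eq_zero]
    exact ⟨fun h => by rw [h]; rfl, fun h => h⟩
  obtain ⟨g, hg⟩ := hχ (Multiplicative.ofAdd 1)
  have hgi : ∀ j : ℕ, i (g ^ j) = j % p := fun j => by
    simp only [i, map_pow, hg, ← ofAdd_nsmul, toAdd_ofAdd, nsmul_one, ZMod.val_natCast]
  have hgp : g ^ p ∈ K := (hmem _).mpr (by rw [hgi, Nat.mod_self])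
  let e : Fin p × K ≃ S := Equiv.ofBijective _ (bijective_pow_mul χ hg)
  have hnormS : ∀ a : A, normSum S A a = ∑ j : Fin p, g ^ (j : ℕ) • normSum K A a := fun a => by
    rw [normSum, ← e.sum_comp, Fintype.sum_prod_type]
    refine Finset.sum_congr rfl fun j _ => ?_
    rw [normSum, Finset.smul_sum]
    exact Finset.sum_congr rfl fun k _ => (mul_smul _ _ a)
  let K' : Subgroup G := K.map S.subtype
  let eK : K ≃* K' := K.equivMapOfInjective S.subtype S.subtype_injective
  have heK : ∀ (k : K) (a : A), eK k • a = k • a := fun _ _ => rfl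
  have hcard : Nat.card K' < n := by
    rw [← Nat.card_congr eK.toEquiv, ← hn, Nat.card_congr e.symm, Nat.card_prod,
      Nat.card_eq_fintype_card (α := Fin p), Fintype.card_fin]
    have := Nat.card_pos (α := K)
    have := hp.out.one_lt
    nlinarith
  obtain ⟨hKs', hKk'⟩ := ih _ hcard K' rfl
  have hKs : NormSurj K A := hKs'.of_equiv eK heK
  have hKk : NormKer K A := hKk'.of_equiv eK heK
  have hK1 : H1Zero K A := (h1 K').of_equiv eK heK
  have hconj : ∀ (s : S) (k : K), s⁻¹ * k * s ∈ K := fun s k => by
    simpa using (inferInstance : K.Normal).conj_mem _ k.2 s⁻¹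
  refine ⟨fun x hx => ?_, fun x hx => ?_⟩
  · -- invariants are norms
    let c : S × S → A := fun st => ((i st.1 + i st.2) / p) • x
    have hc : IsCocycle₂ c := fun a b d => by
      simp only [c, hi_mul, smul_comm a ((i b + i d) / p) x, hx, ← add_smul]
      rw [carry_add p (i a) (i b) (i d) hp.out.pos]
    obtain ⟨b₀, hb₀⟩ := h2 S c hc
    obtain ⟨y, hy⟩ := hK1 (fun k => b₀ k) (fun k k' => by
      have := hb₀ k k'
      simp only [c, (hmem _).mp k.2, (hmem _).mp k'.2, add_zero, Nat.zero_div, zero_smul] at this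
      show b₀ ((k : S) * k') = (k : S) • b₀ k' + b₀ k
      rw [← sub_eq_zero, ← neg_eq_zero]
      rw [← this]; abel)
    let b : S → A := fun s => b₀ s - (s • y - y)
    have hb : ∀ s t, s • b t - b (s * t) + b s = c (s, t) := fun s t => by
      rw [← hb₀ s t]; simp only [b, smul_sub, smul_smul]; abel
    have hbK : ∀ k : K, b k = 0 := fun k => by
      simp only [b]; rw [show (k : S) • y = k • y from rfl, hy k, sub_self]
    have hbr : ∀ (s : S) (k : K), b (s * k) = b s := fun s k => by
      have := hb s k
      simp only [c, hbK, smul_zero, (hmem _).mp k.2, add_zero, Nat.div_eq_of_lt (hi_lt s),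
        zero_smul, zero_sub] at this
      exact (neg_add_eq_zero.mp this)
    have hfix : ∀ k : K, k • b g = b g := fun k => by
      have := hb k g
      simp only [c, hbK, (hmem _).mp k.2, zero_add, Nat.div_eq_of_lt (hi_lt g),
        zero_smul, add_zero, sub_eq_zero] at this
      rw [show k • b g = (k : S) • b g from rfl, this,
        show (k : S) * g = g * ((⟨g⁻¹ * k * g, hconj g k⟩ : K) : S) by simp [mul_assoc]]
      exact hbr g _
    obtain ⟨w, hw⟩ := hKs (b g) hfix
    refine ⟨w, ?_⟩
    rw [hnormS, hw, Fin.sum_univ_eq_sum_range (fun j => g ^ j • b g)]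
    have htel : ∀ m ≤ p, ∑ j ∈ Finset.range m, g ^ j • b g =
        b (g ^ m) + (if m = p then x else 0) := by
      intro m hm
      induction m with
      | zero =>
        rw [Finset.sum_range_zero, pow_zero, if_neg (Ne.symm hp.out.pos.ne'), add_zero]
        exact (hbK 1).symm
      | succ m ihm =>
        have hmp : m < p := hm
        rw [Finset.sum_range_succ, ihm hmp.le, if_neg hmp.ne, add_zero]
        have := hb (g ^ m) g
        simp only [c, ← pow_succ, hgi, show i g = 1 % p by simpa using hgi 1,
          Nat.mod_eq_of_lt hmp, Nat.mod_eq_of_lt hp.out.one_lt] at this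
        have hdiv : (m + 1) / p = if m + 1 = p then 1 else 0 := by
          split_ifs with h'
          · rw [h', Nat.div_self hp.out.pos]
          · exact Nat.div_eq_of_lt (by omega)
        rw [hdiv] at this
        split_ifs with h'
        · simp only [h', if_true, one_smul] at this
          rw [h', ← this]; abel
        · simp only [h', if_false, zero_smul] at this
          rw [add_zero]
          rw [← sub_eq_zero, ← this]; abel
    rw [htel p le_rfl, if_pos rfl, hbK ⟨_, hgp⟩, zero_add]
  · -- the kernel of the norm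
    set y := normSum K A x
    have hyK : ∀ k : K, (k : S) • y = y := fun k => smul_normSum k x
    have hyj : ∀ (j : ℕ) (k : K), (k : S) • (g ^ j • y) = g ^ j • y := fun j k => by
      rw [smul_smul, show (k : S) * g ^ j = g ^ j * ((⟨(g ^ j)⁻¹ * k * g ^ j, hconj _ k⟩ : K) : S)
        by simp [mul_assoc], mul_smul, hyK]
    let P : ℕ → A := fun m => ∑ j ∈ Finset.range m, g ^ j • y
    have hPp : P p = 0 := by
      rw [← hx, hnormS]
      exact (Fin.sum_univ_eq_sum_range (fun j => g ^ j • y) p).symm
    have hPadd : ∀ m m', P (m + m') = P m + g ^ m • P m' := fun m m' => by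
      simp only [P, Finset.sum_range_add, Finset.smul_sum, smul_smul, ← pow_add]
    have hPmod : ∀ m m', m < p → m' < p → P ((m + m') % p) = P m + g ^ m • P m' := fun m m' hm hm' => by
      rw [← hPadd]
      rcases Nat.lt_or_ge (m + m') p with h | h
      · rw [Nat.mod_eq_of_lt h]
      · rw [Nat.mod_eq_sub_mod h, Nat.mod_eq_of_lt (by omega)]
        conv_rhs => rw [show m + m' = p + (m + m' - p) by omega, hPadd, hPp, zero_add]
        simp only [P, Finset.smul_sum]
        refine Finset.sum_congr rfl fun j _ => ?_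
        exact (hyj j ⟨_, hgp⟩).symm
    obtain ⟨z, hz⟩ := h1 S (fun s => P (i s)) fun s t => by
      show P (i (s * t)) = s • P (i t) + P (i s)
      rw [hi_mul, hPmod _ _ (hi_lt s) (hi_lt t), add_comm]
      congr 1
      obtain ⟨⟨j, k⟩, rfl⟩ := e.surjective s
      show g ^ i (g ^ (j : ℕ) * (k : S)) • P (i t) = (g ^ (j : ℕ) * (k : S)) • P (i t)
      rw [hi_mul, hgi, (hmem _).mp k.2, add_zero, Nat.mod_mod, Nat.mod_eq_of_lt j.2, mul_smul]
      congr 1
      simp only [P, Finset.smul_sum, hyj]
    obtain ⟨w, hw⟩ := hKs z fun k => by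
      have := hz k
      simp only [(hmem _).mp k.2, P, Finset.sum_range_zero, sub_eq_zero] at this
      exact this
    have hcomm : normSum K A (g • w) = g • normSum K A w := by
      simp only [normSum, Finset.smul_sum]
      let σ : K ≃ K :=
        { toFun := fun k => ⟨g⁻¹ * k * g, hconj g k⟩
          invFun := fun k => ⟨g * k * g⁻¹, (inferInstance : K.Normal).conj_mem _ k.2 g⟩
          left_inv := fun k => Subtype.ext (by simp [mul_assoc])
          right_inv := fun k => Subtype.ext (by simp [mul_assoc]) }
      refine Fintype.sum_equiv σ _ _ fun k => ?_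
      show (k : S) • g • w = g • ((g⁻¹ * k * g : S) • w)
      simp only [smul_smul, mul_assoc, mul_inv_cancel_left]
    have hx' : normSum K A (x - (g • w - w)) = 0 := by
      rw [normSum_sub, normSum_sub, hcomm, hw]
      have := hz g
      have hg1 : i g = 1 := by simpa [Nat.mod_eq_of_lt hp.out.one_lt] using hgi 1
      simp only [hg1, P, Finset.sum_range_one, pow_zero, one_smul] at this
      rw [this, sub_self]
    have := augSpan_subgroup_le K (hKk _ hx')
    simpa using add_mem this (smul_sub_mem_augSpan g w)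

end PGroup

/-- Homomorphisms into the units of an algebraically closed field extend. -/
theorem exists_extend_units {F : Type*} [Field F] [IsAlgClosed F] [CharZero F] {P : Type*}
    [AddCommGroup P] (R : AddSubgroup P) (a : R →+ Additive Fˣ) :
    ∃ a' : P →+ Additive Fˣ, ∀ s : R, a' s = a s := by
  let : DivisibleBy (Additive Fˣ) ℤ := divisibleByOfSMulRightSurj _ _ fun {n} hn x => by
    obtain ⟨y, hy⟩ := IsAlgClosed.exists_pow_nat_eq ((x.toMul : Fˣ) : F)
      (Int.natAbs_pos.mpr hn)
    have hy0 : y ≠ 0 := fun h => (x.toMul : Fˣ).ne_zero (by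
      rw [← hy, h, zero_pow (Int.natAbs_pos.mpr hn).ne'])
    have hyu : n.natAbs • Additive.ofMul (Units.mk0 y hy0) = x :=
      Additive.toMul.injective (Units.ext (by
        rw [toMul_nsmul, Units.val_pow_eq_pow_val, toMul_ofMul, Units.val_mk0, hy]))
    rcases Int.natAbs_eq n with e | e
    · exact ⟨Additive.ofMul (Units.mk0 y hy0), by
        simp only; rw [e, natCast_zsmul]; exact hyu⟩
    · exact ⟨-Additive.ofMul (Units.mk0 y hy0), by
        simp only; rw [e, neg_zsmul, zsmul_neg, neg_neg, natCast_zsmul]; exact hyu⟩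
  obtain ⟨a', ha'⟩ := (Module.Baer.of_divisible (Additive Fˣ)).extension_property_addMonoidHom
    R.subtype R.subtype_injective a
  exact ⟨a', fun s => DFunLike.congr_fun ha' s⟩

/-- The index of a product of subgroups. -/
@[to_additive index_pi_dep_add]
theorem index_pi_dep {ι : Type*} [Fintype ι] {G : ι → Type*} [∀ i, CommGroup (G i)]
    (H : ∀ i, Subgroup (G i)) : (Subgroup.pi Set.univ H).index = ∏ i, (H i).index := by
  let φ : (∀ i, G i) →* ∀ i, G i ⧸ H i :=
    MonoidHom.pi fun i => (QuotientGroup.mk' (H i)).comp (Pi.evalMonoidHom G i)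
  have hker : φ.ker = Subgroup.pi Set.univ H := by
    ext x
    rw [MonoidHom.mem_ker, Subgroup.mem_pi, funext_iff]
    exact ⟨fun h i _ => (QuotientGroup.eq_one_iff (x i)).mp (h i),
      fun h i => (QuotientGroup.eq_one_iff (x i)).mpr (h i (Set.mem_univ i))⟩
  have hsurj : Function.Surjective φ := fun y =>
    ⟨fun i => (y i).out, funext fun i => QuotientGroup.out_eq' (y i)⟩
  rw [← hker, Subgroup.index_ker, MonoidHom.range_eq_top.mpr hsurj, Subgroup.card_top, Nat.card_pi]
  rfl

end Fermat.Agent.CFT
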