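import Fermat.Agent.CFT.Coh.Pairing

/-!
# Free lattices over a finite group

The lattice `Lat G ι` of functions on `ι × G`, the change of group `Lat.pr` along `π : G →* G₀`
and the extension of equivariant maps from its kernel (`exists_extend_ker`).
-/

set_option autoImplicit false
set_option linter.unusedSectionVars false
set_option linter.style.haveILetI false

noncomputable section

namespace Fermat.Agent.CFT

open groupCohomology

/-- The free lattice `ℤ[G]^ι`, as functions. -/
def Lat (G ι : Type*) : Type _ := ι × G → ℤ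

namespace Lat

variable {G G₀ ι : Type*} [Group G] [Group G₀]

instance : AddCommGroup (Lat G ι) := inferInstanceAs (AddCommGroup (ι × G → ℤ))

instance : DistribMulAction G (Lat G ι) where
  smul g f := fun q => f (q.1, g⁻¹ * q.2)
  one_smul f := funext fun q => show f (q.1, (1 : G)⁻¹ * q.2) = f q by simp
  mul_smul a b f := funext fun q => by
    show f (q.1, (a * b)⁻¹ * q.2) = f (q.1, b⁻¹ * (a⁻¹ * q.2))
    rw [mul_inv_rev, mul_assoc]
  smul_zero _ := rfl
  smul_add _ _ _ := rfl

instance [Finite ι] [Finite G] : Module.Free ℤ (Lat G ι) :=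
  inferInstanceAs (Module.Free ℤ (ι × G → ℤ))

instance [Finite ι] [Finite G] : Module.Finite ℤ (Lat G ι) :=
  inferInstanceAs (Module.Finite ℤ (ι × G → ℤ))

@[simp] theorem smul_apply (g : G) (f : Lat G ι) (q : ι × G) : (g • f) q = f (q.1, g⁻¹ * q.2) := rfl
@[simp] theorem add_apply (f f' : Lat G ι) (q : ι × G) : (f + f') q = f q + f' q := rfl
@[simp] theorem sub_apply (f f' : Lat G ι) (q : ι × G) : (f - f') q = f q - f' q := rfl
@[simp] theorem zero_apply (q : ι × G) : (0 : Lat G ι) q = 0 := rfl

theorem sum_apply {κ : Type*} (s : Finset κ) (f : κ → Lat G ι) (q : ι × G) :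
    (∑ i ∈ s, f i) q = ∑ i ∈ s, f i q :=
  map_sum (AddMonoidHom.mk' (fun f : Lat G ι => f q) fun _ _ => rfl) f s

theorem zsmul_apply (n : ℤ) (f : Lat G ι) (q : ι × G) : (n • f) q = n * f q :=
  (map_zsmul (AddMonoidHom.mk' (fun f : Lat G ι => f q) fun _ _ => rfl) n f).trans (smul_eq_mul _ _)

/-- The basis vectors. -/
def e (i : ι) (x : G) : Lat G ι := by
  classical
  exact fun q => if q = (i, x) then 1 else 0

theorem e_apply [DecidableEq ι] [DecidableEq G] (i : ι) (x : G) (q : ι × G) :
    e i x q = if q = (i, x) then 1 else 0 := by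
  simp only [e]
  split_ifs <;> rfl

theorem smul_e (g : G) (i : ι) (x : G) : g • e i x = e i (g * x) := by
  classical
  funext q
  rw [smul_apply, e_apply, e_apply]
  simp only [Prod.ext_iff, inv_mul_eq_iff_eq_mul]

variable [Fintype ι] [Fintype G]

theorem eq_sum (f : Lat G ι) : f = ∑ q : ι × G, f q • e q.1 q.2 := by
  classical
  funext r
  rw [sum_apply, Finset.sum_eq_single r]
  · simp [zsmul_apply, e_apply]
  · intro q _ hne
    simp [zsmul_apply, e_apply, Ne.symm hne]
  · simp

theorem hom_ext {X : Type*} [AddCommGroup X] {φ ψ : Lat G ι →+ X}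
    (h : ∀ i x, φ (e i x) = ψ (e i x)) : φ = ψ := by
  ext f
  rw [eq_sum f]
  simp only [map_sum, map_zsmul, h]

/-- The homomorphism with given values on the basis. -/
def ofBasis {X : Type*} [AddCommGroup X] (v : ι → G → X) : Lat G ι →+ X :=
  AddMonoidHom.mk' (fun f => ∑ q : ι × G, f q • v q.1 q.2) fun f f' => by
    simp [add_smul, Finset.sum_add_distrib]

@[simp]
theorem ofBasis_e {X : Type*} [AddCommGroup X] (v : ι → G → X) (i : ι) (x : G) :
    ofBasis v (e i x) = v i x := by
  classical
  show ∑ q : ι × G, _ = _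
  rw [Finset.sum_eq_single (i, x)]
  · simp [e_apply]
  · intro q _ hne
    simp [e_apply, hne]
  · simp

theorem map_smul_of_basis {X : Type*} [AddCommGroup X] [DistribMulAction G X] (φ : Lat G ι →+ X)
    (g : G) (h : ∀ i x, φ (e i (g * x)) = g • φ (e i x)) (f : Lat G ι) : φ (g • f) = g • φ f := by
  have e : φ.comp (DistribSMul.toAddMonoidHom (Lat G ι) g) =
      (DistribSMul.toAddMonoidHom X g).comp φ := hom_ext fun i x => by
    simp [smul_e, h]
  exact DFunLike.congr_fun e f

theorem isInduced : IsInduced G (Lat G ι) := by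
  classical
  refine ⟨ofBasis fun i x => if x = 1 then e i x else 0, fun f => ?_⟩
  have : (∑ g : G, (DistribSMul.toAddMonoidHom (Lat G ι) g).comp
      ((ofBasis fun i x => if x = 1 then e i x else 0).comp
        (DistribSMul.toAddMonoidHom (Lat G ι) g⁻¹))) = AddMonoidHom.id (Lat G ι) := hom_ext fun i x => by
    rw [AddMonoidHom.finsetSum_apply, Finset.sum_eq_single x]
    · simp [smul_e]
    · intro g _ hne
      simp [smul_e, inv_mul_eq_one, hne]
    · simp
  have h := DFunLike.congr_fun this f
  rw [AddMonoidHom.finsetSum_apply] at h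
  exact h

variable [Fintype G₀] (π : G →* G₀)

/-- The change of group. -/
def pr : Lat G ι →+ Lat G₀ ι := ofBasis fun i x => e i (π x)

@[simp] theorem pr_e (i : ι) (x : G) : pr π (e i x) = e i (π x) := ofBasis_e _ _ _

theorem pr_smul (g : G) (f : Lat G ι) : pr π (g • f) = π g • pr π f := by
  have h : (pr π (ι := ι)).comp (DistribSMul.toAddMonoidHom (Lat G ι) g) =
      (DistribSMul.toAddMonoidHom (Lat G₀ ι) (π g)).comp (pr π) := hom_ext fun i x => by
    simp [smul_e]
  exact DFunLike.congr_fun h f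

theorem isStable_ker_pr : IsStable G (pr π (ι := ι)).ker := fun g f hf => by
  rw [AddMonoidHom.mem_ker] at hf ⊢
  rw [pr_smul, hf, smul_zero]

/-- A section of the change of group. -/
def sec (hπ : Function.Surjective π) : Lat G₀ ι →+ Lat G ι :=
  ofBasis fun i x => e i (Function.surjInv hπ x)

theorem pr_sec (hπ : Function.Surjective π) (f : Lat G₀ ι) : pr π (sec π hπ f) = f := by
  have h : (pr π (ι := ι)).comp (sec π hπ) = AddMonoidHom.id _ := hom_ext fun i x => by
    simp [sec, Function.surjInv_eq hπ]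
  exact DFunLike.congr_fun h f

theorem eq_of_eq_on_diff {X : Type*} [AddCommGroup X] (hπ : Function.Surjective π)
    (φ : Lat G ι →+ X) (ψ : (pr π (ι := ι)).ker →+ X)
    (h : ∀ i x y (hxy : π x = π y),
      φ (e i x - e i y) = ψ ⟨e i x - e i y, by simp [AddMonoidHom.mem_ker, hxy]⟩)
    (k : (pr π (ι := ι)).ker) : φ k = ψ k := by
  have hmem : ∀ f : Lat G ι, f - sec π hπ (pr π f) ∈ (pr π (ι := ι)).ker := fun f => by
    rw [AddMonoidHom.mem_ker, map_sub, pr_sec, sub_self]
  let c : Lat G ι →+ (pr π (ι := ι)).ker := AddMonoidHom.mk' (fun f => ⟨_, hmem f⟩) fun f f' =>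
    Subtype.ext (by simp only [map_add, AddSubgroup.coe_add]; abel)
  have hc : c k = k := Subtype.ext (by
    show (k : Lat G ι) - _ = k
    rw [AddMonoidHom.mem_ker.mp k.2, map_zero, sub_zero])
  have hh : φ.comp ((pr π (ι := ι)).ker.subtype.comp c) = ψ.comp c := hom_ext fun i x => by
    have e1 : sec π hπ (pr π (e i x)) = e i (Function.surjInv hπ (π x)) := by simp [sec]
    have e2 := h i x (Function.surjInv hπ (π x)) (Function.surjInv_eq hπ _).symm
    show φ (e i x - sec π hπ (pr π (e i x))) = ψ ⟨e i x - sec π hπ (pr π (e i x)), hmem _⟩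
    simp only [e1]
    exact e2
  have := DFunLike.congr_fun hh (k : Lat G ι)
  simp only [AddMonoidHom.comp_apply, hc, AddSubgroup.coe_subtype] at this
  exact this

/-- An equivariant map on the kernel of the change of group extends, if `H¹` of the kernel part
vanishes on the target. -/
theorem exists_extend_ker (hπ : Function.Surjective π) (H : Subgroup G) {X : Type*} [AddCommGroup X]
    [DistribMulAction H X] (h1 : H1Zero (π.ker.subgroupOf H) X)
    (ψ : (pr π (ι := ι)).ker →+ X)
    (hψ : IsEquivariantOn (IsStable.restrict (isStable_ker_pr π) H) ψ) :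
    ∃ Φ : Lat G ι →+ X, (∀ (h : H) (f : Lat G ι), Φ (h • f) = h • Φ f) ∧
      ∀ k : (pr π (ι := ι)).ker, Φ k = ψ k := by
  classical
  let rep : G₀ → G₀ := fun x => (Quotient.mk (QuotientGroup.rightRel (H.map π)) x).out
  have hrep : ∀ x, ∃ h : H, π (h : G) * rep x = x := fun x => by
    have h1 := QuotientGroup.rightRel_apply.mp
      (Quotient.mk_out (s := QuotientGroup.rightRel (H.map π)) x)
    obtain ⟨h, hh, he⟩ := Subgroup.mem_map.mp h1
    exact ⟨⟨h, hh⟩, by rw [he, inv_mul_cancel_right]⟩
  have hrep_mul : ∀ (h : H) x, rep (π (h : G) * x) = rep x := fun h x =>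
    congr_arg Quotient.out (Quotient.sound (QuotientGroup.rightRel_apply.mpr
      (Subgroup.mem_map.mpr ⟨(h : G)⁻¹, inv_mem h.2, by simp⟩)))
  choose hx hhx using hrep
  let base : G₀ → G := fun r => Function.surjInv hπ r
  have hbase : ∀ r, π (base r) = r := Function.surjInv_eq hπ
  have hmem : ∀ (i : ι) (x y : G), π x = π y → e i x - e i y ∈ (pr π (ι := ι)).ker :=
    fun i x y hxy => by simp [AddMonoidHom.mem_ker, hxy]
  have hn : ∀ (n : π.ker.subgroupOf H) (r : G₀), π (((n : H) : G) * base r) = π (base r) :=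
    fun n r => by rw [map_mul, MonoidHom.mem_ker.mp (Subgroup.mem_subgroupOf.mp n.2), one_mul]
  have hy : ∀ (i : ι) (r : G₀), ∃ y : X, ∀ n : π.ker.subgroupOf H,
      (n : H) • y - y = ψ ⟨e i (((n : H) : G) * base r) - e i (base r), hmem _ _ _ (hn n r)⟩ :=
    fun i r => by
      refine h1 (fun n => ψ ⟨_, hmem _ _ _ (hn n r)⟩) fun m n => ?_
      show _ = (m : H) • ψ _ + ψ _
      rw [← hψ (m : H), ← map_add]
      refine congr_arg ψ (Subtype.ext ?_)
      show e i ((((m * n : π.ker.subgroupOf H) : H) : G) * base r) - e i (base r) =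
        ((m : H) : G) • (e i (((n : H) : G) * base r) - e i (base r)) +
          (e i (((m : H) : G) * base r) - e i (base r))
      rw [smul_sub, smul_e, smul_e, Subgroup.coe_mul, Subgroup.coe_mul, mul_assoc]
      abel
  choose y hy using hy
  have hv : ∀ (x : G) (h : H), π (h : G) * rep (π x) = π x →
      π x = π ((h : G) * base (rep (π x))) := fun x h hh => by rw [map_mul, hbase, hh]
  let v : ι → G → X := fun i x =>
    ψ ⟨_, hmem i x _ (hv x (hx (π x)) (hhx _))⟩ + hx (π x) • y i (rep (π x))
  have hind : ∀ i x (h : H) (hh : π (h : G) * rep (π x) = π x),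
      v i x = ψ ⟨_, hmem i x _ (hv x h hh)⟩ + h • y i (rep (π x)) := by
    intro i x h hh
    set h₀ := hx (π x)
    set r := rep (π x)
    have hk : (h₀⁻¹ * h : H) ∈ π.ker.subgroupOf H := by
      rw [Subgroup.mem_subgroupOf, MonoidHom.mem_ker, Subgroup.coe_mul, Subgroup.coe_inv, map_mul,
        map_inv, inv_mul_eq_one]
      exact mul_right_cancel ((hhx (π x)).trans hh.symm)
    have e0 := hy i r ⟨_, hk⟩
    have e1 := congr_arg (fun z => h₀ • z) e0
    simp only [smul_sub, smul_smul, mul_inv_cancel_left, ← hψ h₀] at e1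
    show ψ _ + h₀ • y i r = _
    have e2 : ψ ⟨_, hmem i x _ (hv x h₀ (hhx _))⟩ = ψ ⟨_, hmem i x _ (hv x h hh)⟩ +
        ψ (smulS (IsStable.restrict (isStable_ker_pr π) H) h₀
          ⟨_, hmem i _ _ (hn ⟨_, hk⟩ r)⟩) := by
      rw [← map_add]
      congr 1
      refine Subtype.ext ?_
      show e i x - e i ((h₀ : G) * base r) = e i x - e i ((h : G) * base r) +
        (h₀ : G) • (e i (((h₀⁻¹ * h : H) : G) * base r) - e i (base r))
      rw [smul_sub, smul_e, smul_e, ← mul_assoc, ← Subgroup.coe_mul, mul_inv_cancel_left]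
      abel
    rw [e2, ← e1]
    abel
  refine ⟨ofBasis v, fun h f => ?_, fun k => ?_⟩
  · have he : (ofBasis v).comp (DistribSMul.toAddMonoidHom (Lat G ι) (h : G)) =
        (DistribSMul.toAddMonoidHom X h).comp (ofBasis v) := hom_ext fun i x => by
      simp only [AddMonoidHom.comp_apply, DistribSMul.toAddMonoidHom_apply, smul_e, ofBasis_e]
      have hr : rep (π ((h : G) * x)) = rep (π x) := by rw [map_mul, hrep_mul]
      have hh : π ((h * hx (π x) : H) : G) * rep (π ((h : G) * x)) = π ((h : G) * x) := by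
        rw [hr, Subgroup.coe_mul, map_mul, mul_assoc, hhx, ← map_mul]
      rw [hind i _ _ hh]
      show _ = h • (ψ _ + hx (π x) • y i (rep (π x)))
      rw [smul_add, smul_smul, ← hψ h]
      simp only [hr]
      congr 2
      refine Subtype.ext ?_
      show e i ((h : G) * x) - e i (((h * hx (π x) : H) : G) * base (rep (π x))) =
        (h : G) • (e i x - e i ((hx (π x) : G) * base (rep (π x))))
      rw [smul_sub, smul_e, smul_e, Subgroup.coe_mul, mul_assoc]
    exact DFunLike.congr_fun he f
  · refine eq_of_eq_on_diff π hπ _ ψ (fun i x z hxz => ?_) k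
    rw [map_sub, ofBasis_e, ofBasis_e]
    have hh : π (hx (π x) : G) * rep (π z) = π z := by rw [← hxz]; exact hhx (π x)
    rw [hind i z _ hh, hind i x _ (hhx (π x))]
    simp only [hxz]
    rw [add_sub_add_right_eq_sub, ← map_sub]
    congr 1
    refine Subtype.ext ?_
    simp only [AddSubgroup.coe_sub]
    abel

end Lat

end Fermat.Agent.CFT
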