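import Fermat.Agent.CFT.Coh.Lattice
import Fermat.Agent.CFT.Coh.Transfer

/-!
# Duality between two levels

For a surjection `π : G₁ →* G₀` with a class formation upstairs (`LevelSystem`) and a lattice
presentation of a module `A` killed by `p`, the map `theta` from equivariant homomorphisms on the
relations at the lower level to functionals on `A`-valued cocycles of `G₁`: its surjectivity
(`exists_theta_eq`), its kernel (`exists_of_theta_eq_zero`) and its compatibility with traces.
-/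

set_option autoImplicit false
set_option linter.unusedSectionVars false
set_option linter.style.haveILetI false

noncomputable section

namespace Fermat.Agent.CFT

open groupCohomology

variable {G₁ G₀ C₁ C₀ A ι : Type*} [Group G₁] [Fintype G₁] [Group G₀] [Fintype G₀]
  [AddCommGroup C₁] [DistribMulAction G₁ C₁] [AddCommGroup C₀] [DistribMulAction G₀ C₀]
  [AddCommGroup A] [DistribMulAction G₀ A] [Fintype ι]

/-- A class formation at an upper level with the coefficients of a lower level inside. -/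
structure LevelSystem (p : ℕ) (π : G₁ →* G₀) (j : C₀ →+ C₁) (u : NormCocycle G₁ C₁) : Prop where
  surjective : Function.Surjective π
  injective : Function.Injective j
  map_smul : ∀ (g : G₁) (c : C₀), j (π g • c) = g • j c
  exists_of_fixed : ∀ c : C₁, (∀ n ∈ π.ker, n • c = c) → ∃ x, j x = c
  classFormation : IsClassFormation p u
  isPGroup_ker : IsPGroup p π.ker

/-- A presentation of a module killed by `p` by a free lattice. -/
structure Presentation (p : ℕ) (ε : Lat G₀ ι →+ A) : Prop where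
  surjective : Function.Surjective ε
  map_smul : ∀ (g : G₀) (x : Lat G₀ ι), ε (g • x) = g • ε x
  killed : ∀ a : A, p • a = 0

variable (π : G₁ →* G₀)

/-- Cocycles on the upper level with values in a module of the lower level. -/
def levelCocycles (A : Type*) [AddCommGroup A] [DistribMulAction G₀ A] : AddSubgroup (G₁ → A) where
  carrier := {a | ∀ g h, a (g * h) = π g • a h + a g}
  add_mem' {a b} ha hb g h := by
    simp only [Pi.add_apply, ha g h, hb g h, smul_add]; abel
  zero_mem' g h := by simp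
  neg_mem' {a} ha g h := by simp only [Pi.neg_apply, ha g h, smul_neg]; abel

/-- The cocycles which are coboundaries on a subgroup. -/
def coboundOn (A : Type*) [AddCommGroup A] [DistribMulAction G₀ A] (H : Subgroup G₁) :
    AddSubgroup (levelCocycles π A) where
  carrier := {a | ∃ x : A, ∀ g ∈ H, (a : G₁ → A) g = π g • x - x}
  zero_mem' := ⟨0, fun g _ => by simp⟩
  add_mem' := by
    rintro a b ⟨x, hx⟩ ⟨y, hy⟩
    exact ⟨x + y, fun g hg => by
      rw [AddSubgroup.coe_add, Pi.add_apply, hx g hg, hy g hg, smul_add]; abel⟩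
  neg_mem' := by
    rintro a ⟨x, hx⟩
    exact ⟨-x, fun g hg => by rw [AddSubgroup.coe_neg, Pi.neg_apply, hx g hg, smul_neg]; abel⟩

variable {π} {p : ℕ} {ε : Lat G₀ ι →+ A}

theorem Presentation.isStable_ker (hε : Presentation p ε) : IsStable G₀ ε.ker := fun g s hs => by
  rw [AddMonoidHom.mem_ker] at hs ⊢; rw [hε.map_smul, hs, smul_zero]

theorem Presentation.smul_mem (hε : Presentation p ε) (x : Lat G₀ ι) : p • x ∈ ε.ker := by
  rw [AddMonoidHom.mem_ker, map_nsmul, hε.killed]

variable (π ε) in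
/-- The relations at the upper level. -/
def relUp : AddSubgroup (Lat G₁ ι) := (ε.comp (Lat.pr π)).ker

theorem Presentation.isStable_up (hε : Presentation p ε) : IsStable G₁ (relUp π ε) :=
  fun g s hs => by
    simp only [relUp, AddMonoidHom.mem_ker, AddMonoidHom.comp_apply] at hs ⊢
    rw [Lat.pr_smul, hε.map_smul, hs, smul_zero]

theorem Presentation.smul_mem_up (hε : Presentation p ε) (x : Lat G₁ ι) :
    p • x ∈ relUp π ε := by
  rw [relUp, AddMonoidHom.mem_ker, map_nsmul, hε.killed]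

theorem mem_relUp {x : Lat G₁ ι} : x ∈ relUp π ε ↔ ε (Lat.pr π x) = 0 := AddMonoidHom.mem_ker

theorem ker_pr_le : (Lat.pr π (ι := ι)).ker ≤ relUp π ε := fun x hx => by
  rw [relUp, AddMonoidHom.mem_ker, AddMonoidHom.comp_apply, AddMonoidHom.mem_ker.mp hx, map_zero]

variable (π ε) in
/-- The projection of relations. -/
def prS : relUp π ε →+ ε.ker :=
  ((Lat.pr π).comp (relUp π ε).subtype).codRestrict ε.ker fun s => AddMonoidHom.mem_ker.mpr s.2

@[simp] theorem coe_prS (s : relUp π ε) :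
    ((prS π ε s : ε.ker) : Lat G₀ ι) = Lat.pr π (s : Lat G₁ ι) := rfl

variable (π ε) in
/-- A section of the projection of relations. -/
def secS (hπ : Function.Surjective π) : ε.ker →+ relUp π ε :=
  ((Lat.sec π hπ).comp ε.ker.subtype).codRestrict (relUp π ε) fun s => by
    rw [relUp, AddMonoidHom.mem_ker]
    show ε (Lat.pr π (Lat.sec π hπ (s : Lat G₀ ι))) = 0
    rw [Lat.pr_sec]
    exact AddMonoidHom.mem_ker.mp s.2

theorem prS_secS (hπ : Function.Surjective π) (s : ε.ker) : prS π ε (secS π ε hπ s) = s :=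
  Subtype.ext (Lat.pr_sec π hπ _)

theorem sub_secS_mem (hπ : Function.Surjective π) (s : relUp π ε) :
    (s : Lat G₁ ι) - secS π ε hπ (prS π ε s) ∈ (Lat.pr π (ι := ι)).ker := by
  rw [AddMonoidHom.mem_ker, map_sub, ← coe_prS, ← coe_prS, prS_secS, sub_self]

theorem smul_sub_mem_ker_pr {n : G₁} (hn : n ∈ π.ker) (x : Lat G₁ ι) :
    n • x - x ∈ (Lat.pr π (ι := ι)).ker := by
  rw [AddMonoidHom.mem_ker, map_sub, Lat.pr_smul, MonoidHom.mem_ker.mp hn, one_smul, sub_self]

theorem prS_smul (hε : Presentation p ε) (g : G₁) (s : relUp π ε) :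
    prS π ε (smulS hε.isStable_up g s) = smulS hε.isStable_ker (π g) (prS π ε s) :=
  Subtype.ext (Lat.pr_smul π g _)

theorem apply_eq_of_vanish (hπ : Function.Surjective π) {X : Type*} [AddCommGroup X]
    (f : relUp π ε →+ X) (hf : ∀ k : (Lat.pr π (ι := ι)).ker,
      f (AddSubgroup.inclusion ker_pr_le k) = 0) (s : relUp π ε) :
    f s = f (secS π ε hπ (prS π ε s)) := by
  have h := hf ⟨_, sub_secS_mem hπ s⟩
  have e : AddSubgroup.inclusion ker_pr_le
      (⟨_, sub_secS_mem hπ s⟩ : (Lat.pr π (ι := ι)).ker) = s - secS π ε hπ (prS π ε s) := rfl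
  rw [e, map_sub, sub_eq_zero] at h
  exact h

variable {j : C₀ →+ C₁} {u : NormCocycle G₁ C₁}

variable (π j ε) in
/-- Pull back to the upper level. -/
def pullHom : (ε.ker →+ C₀) →+ (relUp π ε →+ C₁) :=
  AddMonoidHom.mk' (fun f => (j.comp f).comp (prS π ε)) fun f g => by ext; simp

@[simp] theorem pullHom_apply (f : ε.ker →+ C₀) (s : relUp π ε) :
    pullHom π ε j f s = j (f (prS π ε s)) := rfl

theorem pullHom_vanish (f : ε.ker →+ C₀) (k : (Lat.pr π (ι := ι)).ker) :
    pullHom π ε j f (AddSubgroup.inclusion ker_pr_le k) = 0 := by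
  have e : prS π ε (AddSubgroup.inclusion ker_pr_le k) = 0 :=
    Subtype.ext (AddMonoidHom.mem_ker.mp k.2)
  rw [pullHom_apply, e, map_zero, map_zero]

section

variable [hp : Fact p.Prime] (hL : LevelSystem p π j u) (hε : Presentation p ε)

include hL in
theorem h1Zero_ker : H1Zero π.ker C₁ := hL.classFormation.h1 _ hL.isPGroup_ker

include hL in
theorem equivariant_pullHom (f : equivHom (C := C₀) hε.isStable_ker) :
    IsEquivariantOn hε.isStable_up (pullHom π ε j f.1) := fun g s => by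
  rw [pullHom_apply, pullHom_apply, prS_smul hε, f.2, hL.map_smul]

/-- The pulled back element. -/
def pullEquiv : equivHom (C := C₀) hε.isStable_ker →+ equivHom (C := C₁) (hε.isStable_up (π := π)) :=
  AddMonoidHom.mk' (fun f => ⟨pullHom π ε j f.1, equivariant_pullHom hL hε f⟩)
    fun f g => Subtype.ext (map_add (pullHom π ε j) f.1 g.1)

/-- A lift of a cocycle to the lattice. -/
def liftC (a : G₁ → A) (g : G₁) : Lat G₁ ι :=
  have := hε
  Function.invFun (fun x => ε (Lat.pr π x)) (a g)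

include hL in
theorem eps_liftC (a : G₁ → A) (g : G₁) : ε (Lat.pr π (liftC (π := π) hε a g)) = a g :=
  Function.invFun_eq (f := fun x => ε (Lat.pr π x))
    ((hε.surjective.comp fun y => ⟨_, Lat.pr_sec π hL.surjective y⟩) (a g))

include hL in
theorem liftC_mem (a : levelCocycles π A) :
    liftC (π := π) hε (a : G₁ → A) ∈ cocycleMod (G := G₁) (S := relUp π ε) := fun g h => by
  rw [mem_relUp]
  simp only [map_add, map_sub, Lat.pr_smul, hε.map_smul, eps_liftC hL hε, a.2 g h]
  abel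

/-- The duality map. -/
def theta : equivHom (C := C₀) hε.isStable_ker →+ levelCocycles π A →+ ZMod p :=
  AddMonoidHom.mk'
    (fun f => AddMonoidHom.mk'
      (fun a => pair hε.isStable_up hε.smul_mem_up hL.classFormation Lat.isInduced
        (pullEquiv hL hε f) ⟨_, liftC_mem hL hε a⟩)
      fun a b => by
        rw [← sub_eq_zero, ← map_add, ← map_sub]
        refine pair_coboundary _ _ _ _ _ _ ⟨0, fun g => ?_⟩
        simp only [smul_zero, sub_zero, AddSubgroup.coe_sub, AddSubgroup.coe_add, Pi.sub_apply,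
          Pi.add_apply]
        rw [mem_relUp]
        simp [eps_liftC hL hε])
    fun f f' => by ext a; simp

theorem theta_apply (f : equivHom (C := C₀) hε.isStable_ker) (a : levelCocycles π A) :
    theta hL hε f a = pair hε.isStable_up hε.smul_mem_up hL.classFormation Lat.isInduced
      (pullEquiv hL hε f) ⟨_, liftC_mem hL hε a⟩ := rfl

theorem theta_eq_pair (f : equivHom (C := C₀) hε.isStable_ker) (a : levelCocycles π A)
    (b : cocycleMod (G := G₁) (S := relUp π ε))
    (hb : ∀ g, ε (Lat.pr π ((b : G₁ → Lat G₁ ι) g)) = (a : G₁ → A) g) :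
    theta hL hε f a = pair hε.isStable_up hε.smul_mem_up hL.classFormation Lat.isInduced
      (pullEquiv hL hε f) b := by
  rw [theta_apply, ← sub_eq_zero, ← map_sub]
  refine pair_coboundary _ _ _ _ _ _ ⟨0, fun g => ?_⟩
  simp only [smul_zero, sub_zero, AddSubgroup.coe_sub, Pi.sub_apply]
  rw [mem_relUp]
  simp [eps_liftC hL hε, hb g]

theorem theta_coboundary (f : equivHom (C := C₀) hε.isStable_ker) (a : levelCocycles π A) (x : A)
    (ha : ∀ g, (a : G₁ → A) g = π g • x - x) : theta hL hε f a = 0 := by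
  obtain ⟨y, hy⟩ := hε.surjective x
  set z := Lat.sec π hL.surjective y
  rw [theta_apply]
  refine pair_coboundary _ _ _ _ _ _ ⟨z, fun g => ?_⟩
  rw [mem_relUp]
  simp [eps_liftC hL hε, z, Lat.pr_smul, Lat.pr_sec, hε.map_smul, hy, ha g]

/-- Homomorphisms which are norms upstairs pair to zero. -/
theorem theta_eq_zero_of_norm (f : equivHom (C := C₀) hε.isStable_ker) (φ : relUp π ε →+ C₁)
    (hφ : normOn hε.isStable_up φ = pullHom π ε j f.1) : theta hL hε f = 0 := by
  ext a
  rw [theta_apply, show pullEquiv hL hε f =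
    ⟨normOn hε.isStable_up φ, isEquivariantOn_normOn _ φ⟩ from Subtype.ext hφ.symm,
    pair_normOn, AddMonoidHom.zero_apply]

/-- Restrictions of equivariant maps on the lattice pair to zero. -/
theorem theta_eq_zero_of_ext (f : equivHom (C := C₀) hε.isStable_ker) (Y : Lat G₀ ι →+ C₀)
    (hY : ∀ (g : G₀) x, Y (g • x) = g • Y x) (hfY : ∀ s : ε.ker, f.1 s = Y s) : theta hL hε f = 0 := by
  obtain ⟨T, hT⟩ := (Lat.isInduced : IsInduced G₁ (Lat G₁ ι))
  refine theta_eq_zero_of_norm hL hε f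
    ((((j.comp Y).comp (Lat.pr π)).comp T).comp (relUp π ε).subtype) ?_
  rw [normOn_comp_of_equivariant hε.isStable_up hT _ fun g x => by
    simp [Lat.pr_smul, hY, hL.map_smul]]
  ext s
  simp [hfY]

/-- Compatibility with traces from a subgroup of the upper level. -/
theorem theta_eq_of_trace (f : equivHom (C := C₀) hε.isStable_ker) {H : Subgroup G₁} [Fintype H]
    [Fintype (G₁ ⧸ H)] {Cv : Type*} [AddCommGroup Cv] [DistribMulAction H Cv]
    {uv : NormCocycle H Cv} (huv : IsClassFormation p uv) (σ : SplitHom H uv u)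
    (g : equivHom (C := Cv) (IsStable.restrict (hε.isStable_up (π := π)) H))
    (hfg : pullHom π ε j f.1 = trHom hε.isStable_up H (σ.j.comp g.1))
    (a : levelCocycles π A) :
    theta hL hε f a = (σ.s : ZMod p) * pair (IsStable.restrict hε.isStable_up H) hε.smul_mem_up huv
      (Lat.isInduced.subgroup H) g (resMod H ⟨_, liftC_mem hL hε a⟩) := by
  rw [theta_apply, show pullEquiv hL hε f = trEquiv hε.isStable_up σ g from Subtype.ext hfg]
  exact pair_trEquiv hε.isStable_up hε.smul_mem_up hL.classFormation Lat.isInduced huv σ g _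

include hL in
theorem exists_descend_hom (ψ : relUp π ε →+ C₁)
    (hK : ∀ k : (Lat.pr π (ι := ι)).ker, ψ (AddSubgroup.inclusion ker_pr_le k) = 0)
    (hV : ∀ n ∈ π.ker, ∀ s : relUp π ε, ψ (smulS hε.isStable_up n s) = n • ψ s) :
    ∃ f₀ : ε.ker →+ C₀, pullHom π ε j f₀ = ψ := by
  have hπ := hL.surjective
  have hfix : ∀ s : ε.ker, ∀ n ∈ π.ker, n • ψ (secS π ε hπ s) = ψ (secS π ε hπ s) := by
    intro s n hn
    rw [← hV n hn, apply_eq_of_vanish hπ ψ hK]
    congr 2
    refine Subtype.ext ?_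
    rw [coe_prS, coe_smulS, Lat.pr_smul, MonoidHom.mem_ker.mp hn, one_smul]
    exact congr_arg Subtype.val (prS_secS hπ s)
  choose w hw using fun s : ε.ker => hL.exists_of_fixed _ (hfix s)
  refine ⟨AddMonoidHom.mk' w fun s t => hL.injective (by simp [hw]), ?_⟩
  ext s
  rw [pullHom_apply, AddMonoidHom.mk'_apply, hw, ← apply_eq_of_vanish hπ ψ hK]

include hε in
theorem mem_levelCocycles (b : cocycleMod (G := G₁) (S := relUp π ε)) :
    (fun g => ε (Lat.pr π ((b : G₁ → Lat G₁ ι) g))) ∈ levelCocycles π A := fun g h => by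
  have e := b.2 g h
  rw [mem_relUp] at e
  simp only [map_add, map_sub, Lat.pr_smul, hε.map_smul] at e
  rw [← sub_eq_zero, ← neg_eq_zero, ← e]
  abel

include hL in
/-- Surjectivity of the duality map. -/
theorem exists_theta_eq (μ : levelCocycles π A →+ ZMod p)
    (hμ : ∀ a : levelCocycles π A, ∀ x : A, (∀ g, (a : G₁ → A) g = π g • x - x) → μ a = 0) :
    ∃ f, theta hL hε f = μ := by
  have hπ := hL.surjective
  let push : cocycleMod (G := G₁) (S := relUp π ε) →+ levelCocycles π A :=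
    AddMonoidHom.mk' (fun b => ⟨_, mem_levelCocycles hε b⟩)
      fun b b' => Subtype.ext (funext fun g => by simp)
  obtain ⟨f₁, hf₁⟩ := exists_pair_eq (G := G₁) hε.isStable_up hε.smul_mem_up hL.classFormation
    Lat.isInduced (μ.comp push) fun b hb => by
      obtain ⟨x, hx⟩ := hb
      refine hμ _ (ε (Lat.pr π x)) fun g => ?_
      have e := hx g
      rw [mem_relUp] at e
      simp only [map_sub, Lat.pr_smul, hε.map_smul, sub_eq_zero] at e
      exact e
  set ψ : (Lat.pr π (ι := ι)).ker →+ C₁ := f₁.1.comp (AddSubgroup.inclusion ker_pr_le) with hψ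
  obtain ⟨Φ, hΦ, hΦψ⟩ := Lat.exists_extend_ker π hπ ⊤
    ((h1Zero_ker hL).of_equiv (Subgroup.subgroupOfEquivOfLe le_top) fun _ _ => rfl) ψ
    fun h k => f₁.2 (h : G₁) (AddSubgroup.inclusion ker_pr_le k)
  have hΦ' : ∀ (g : G₁) x, Φ (g • x) = g • Φ x := fun g x => hΦ ⟨g, trivial⟩ x
  obtain ⟨f₀, hf₀⟩ := exists_descend_hom hL hε (f₁.1 - Φ.comp (relUp π ε).subtype)
    (fun k => by
      simp only [AddMonoidHom.sub_apply, AddMonoidHom.comp_apply, AddSubgroup.coe_subtype,
        AddSubgroup.coe_inclusion, hΦψ, hψ, sub_self])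
    (fun n _ s => by
      simp only [AddMonoidHom.sub_apply, AddMonoidHom.comp_apply, AddSubgroup.coe_subtype,
        coe_smulS, f₁.2 n s, hΦ', smul_sub])
  have hf₀e : IsEquivariantOn hε.isStable_ker f₀ := fun g s => hL.injective (by
    obtain ⟨g, rfl⟩ := hπ g
    have e := DFunLike.congr_fun hf₀
    have e1 := e (smulS hε.isStable_up g (secS π ε hπ s))
    rw [pullHom_apply, prS_smul hε, prS_secS] at e1
    rw [e1, hL.map_smul]
    have e2 := e (secS π ε hπ s)
    rw [pullHom_apply, prS_secS] at e2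
    rw [e2]
    simp only [AddMonoidHom.sub_apply, AddMonoidHom.comp_apply, AddSubgroup.coe_subtype, coe_smulS,
      f₁.2 g, hΦ', smul_sub])
  refine ⟨⟨f₀, hf₀e⟩, ?_⟩
  ext a
  obtain ⟨T, hT⟩ := (Lat.isInduced : IsInduced G₁ (Lat G₁ ι))
  have he : pullEquiv hL hε ⟨f₀, hf₀e⟩ = f₁ -
      ⟨normOn hε.isStable_up ((Φ.comp T).comp (relUp π ε).subtype), isEquivariantOn_normOn _ _⟩ :=
    Subtype.ext (hf₀.trans (by
      show _ = f₁.1 - normOn hε.isStable_up ((Φ.comp T).comp (relUp π ε).subtype)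
      rw [normOn_comp_of_equivariant hε.isStable_up hT Φ hΦ']))
  rw [theta_apply, he, map_sub, AddMonoidHom.sub_apply, pair_normOn, sub_zero, hf₁]
  show μ _ = μ a
  congr 1
  exact Subtype.ext (funext fun g => eps_liftC hL hε _ g)

theorem trHom_pullHom [Fintype (G₁ ⧸ π.ker)] (η : ε.ker →+ C₀) (hπ : Function.Surjective π)
    (hj : ∀ (g : G₁) (c : C₀), j (π g • c) = g • j c) :
    trHom hε.isStable_up π.ker (pullHom π ε j η) =
      pullHom π ε j (normOn hε.isStable_ker η) := by
  ext s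
  rw [trHom_apply, AddMonoidHom.finsetSum_apply, pullHom_apply, normOn_apply, map_sum]
  refine Fintype.sum_bijective (fun q : G₁ ⧸ π.ker => π q.out) ⟨fun q q' h => ?_, fun g => ?_⟩ _ _
    fun q => ?_
  · rw [← QuotientGroup.out_eq' q, ← QuotientGroup.out_eq' q', QuotientGroup.eq]
    rw [MonoidHom.mem_ker, map_mul, map_inv]
    simp only at h
    rw [h, inv_mul_cancel]
  · obtain ⟨g, rfl⟩ := hπ g
    refine ⟨(g : G₁ ⧸ π.ker), ?_⟩
    obtain ⟨n, hn⟩ := QuotientGroup.mk_out_eq_mul π.ker g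
    show π (g : G₁ ⧸ π.ker).out = π g
    rw [hn, map_mul, MonoidHom.mem_ker.mp n.2, mul_one]
  · rw [conjOn_apply, pullHom_apply, prS_smul hε, map_inv, hj]

include hL in
/-- The kernel of the duality map. -/
theorem exists_of_theta_eq_zero [Fintype π.ker] (f : equivHom (C := C₀) hε.isStable_ker)
    (hf : theta hL hε f = 0) :
    ∃ (Y : Lat G₀ ι →+ C₀) (η : ε.ker →+ C₀), (∀ (g : G₀) x, Y (g • x) = g • Y x) ∧
      (∀ s, ∃ c : C₁, normSum π.ker C₁ c = j (η s)) ∧
      f.1 = Y.comp ε.ker.subtype + normOn hε.isStable_ker η := by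
  classical
  have hπ := hL.surjective
  letI : Fintype (G₁ ⧸ π.ker) := Fintype.ofFinite _
  set hS := hε.isStable_up (π := π)
  set hSV := IsStable.restrict hS π.ker
  obtain ⟨φ, hφ⟩ := exists_normOn_of_pair_eq_zero hS hε.smul_mem_up hL.classFormation Lat.isInduced
    (pullEquiv hL hε f) fun b => by
      have hb := mem_levelCocycles hε b
      rw [← theta_eq_pair hL hε f ⟨_, hb⟩ b fun g => rfl, hf, AddMonoidHom.zero_apply]
  replace hφ : normOn hS φ = pullHom π ε j f.1 := hφ
  obtain ⟨Φ, hΦ, hΦψ⟩ := Lat.exists_extend_ker π hπ π.ker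
    ((h1Zero_ker hL).of_equiv (Subgroup.subgroupOfEquivOfLe le_rfl) fun _ _ => rfl)
    ((normOn hSV φ).comp (AddSubgroup.inclusion ker_pr_le))
    fun h k => isEquivariantOn_normOn hSV φ h (AddSubgroup.inclusion ker_pr_le k)
  obtain ⟨T, hT⟩ := (Lat.isInduced : IsInduced G₁ (Lat G₁ ι)).subgroup π.ker
  set φ' := φ - (Φ.comp T).comp (relUp π ε).subtype with hφ'
  have hψ' : normOn hSV φ' = normOn hSV φ - Φ.comp (relUp π ε).subtype := by
    rw [← normOn_comp_of_equivariant hSV hT Φ hΦ, hφ', ← normHom_apply hSV, map_sub,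
      normHom_apply, normHom_apply]
  set ψ := normOn hSV φ'
  have hψK : ∀ k : (Lat.pr π (ι := ι)).ker, ψ (AddSubgroup.inclusion ker_pr_le k) = 0 := fun k => by
    rw [hψ', AddMonoidHom.sub_apply, AddMonoidHom.comp_apply, AddSubgroup.coe_subtype,
      AddSubgroup.coe_inclusion, hΦψ, AddMonoidHom.comp_apply, sub_self]
  -- the linear correction
  have hmem : ∀ (v : π.ker) (x : Lat G₁ ι), ((v : G₁)⁻¹ • x - x) ∈ relUp π ε := fun v x =>
    ker_pr_le (smul_sub_mem_ker_pr (inv_mem v.2) x)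
  let Θ : Lat G₁ ι →+ C₁ := AddMonoidHom.mk'
    (fun x => ∑ v : π.ker, (v : G₁) • φ' ⟨_, hmem v x⟩) fun x y => by
      rw [← Finset.sum_add_distrib]
      refine Finset.sum_congr rfl fun v _ => ?_
      rw [← smul_add, ← map_add]
      refine congr_arg _ (congr_arg φ' (Subtype.ext ?_))
      simp only [smul_add, AddSubgroup.coe_add]
      abel
  have hΘfix : ∀ x, ∀ n ∈ π.ker, n • Θ x = Θ x := by
    intro x n hn
    have h0 := hψK ⟨_, smul_sub_mem_ker_pr hn x⟩
    rw [show ψ = normOn hSV φ' from rfl, normOn_apply] at h0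
    rw [← sub_eq_zero, ← h0]
    show n • (∑ v : π.ker, (v : G₁) • φ' ⟨_, hmem v x⟩) - (∑ v : π.ker, (v : G₁) • φ' ⟨_, hmem v x⟩) = _
    have e : n • (∑ v : π.ker, (v : G₁) • φ' ⟨_, hmem v x⟩) =
        ∑ v : π.ker, (v : G₁) • φ' ⟨_, hmem ((⟨n, hn⟩ : π.ker)⁻¹ * v) x⟩ := by
      rw [Finset.smul_sum]
      refine Fintype.sum_equiv (Equiv.mulLeft (⟨n, hn⟩ : π.ker)) _ _ fun v => ?_
      simp only [Equiv.coe_mulLeft, inv_mul_cancel_left, smul_smul, Subgroup.coe_mul]
    rw [e, ← Finset.sum_sub_distrib]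
    refine Finset.sum_congr rfl fun v _ => ?_
    rw [← smul_sub, ← map_sub]
    refine congr_arg _ (congr_arg φ' (Subtype.ext ?_))
    show ((((⟨n, hn⟩ : π.ker)⁻¹ * v : π.ker) : G₁)⁻¹ • x - x) - ((v : G₁)⁻¹ • x - x) =
      (v : G₁)⁻¹ • (n • x - x)
    simp [smul_sub, mul_smul]
  choose Y₁ hY₁ using fun x : Lat G₀ ι => hL.exists_of_fixed _ (hΘfix (Lat.sec π hπ x))
  let Y₁' : Lat G₀ ι →+ C₀ := AddMonoidHom.mk' Y₁ fun x y => hL.injective (by
    rw [map_add j, hY₁, hY₁, hY₁, map_add, map_add])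
  have hnfix : ∀ (s : ε.ker), ∀ n ∈ π.ker,
      n • normSum π.ker C₁ (φ' (secS π ε hπ s)) = normSum π.ker C₁ (φ' (secS π ε hπ s)) :=
    fun s n hn => smul_normSum (⟨n, hn⟩ : π.ker) _
  choose η hη using fun s : ε.ker => hL.exists_of_fixed _ (hnfix s)
  let η' : ε.ker →+ C₀ := AddMonoidHom.mk' η fun x y => hL.injective (by
    rw [map_add j, hη, hη, hη, map_add, map_add, normSum_add])
  have hψη : ψ = pullHom π ε j (η' + Y₁'.comp ε.ker.subtype) := by
    ext1 s
    rw [apply_eq_of_vanish hπ ψ hψK, pullHom_apply]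
    set t := prS π ε s
    show ψ (secS π ε hπ t) = j (η t + Y₁ (t : Lat G₀ ι))
    rw [map_add, hη, hY₁]
    show normOn hSV φ' (secS π ε hπ t) = normSum π.ker C₁ (φ' (secS π ε hπ t)) +
      ∑ v : π.ker, (v : G₁) • φ' ⟨_, hmem v _⟩
    rw [normOn_apply, normSum, ← Finset.sum_add_distrib]
    refine Finset.sum_congr rfl fun v _ => ?_
    rw [show v • φ' (secS π ε hπ t) = (v : G₁) • φ' (secS π ε hπ t) from rfl, ← smul_add, ← map_add]
    refine congr_arg _ (congr_arg φ' (Subtype.ext ?_))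
    show (v : G₁)⁻¹ • Lat.sec π hπ (t : Lat G₀ ι) =
      Lat.sec π hπ (t : Lat G₀ ι) + ((v : G₁)⁻¹ • Lat.sec π hπ (t : Lat G₀ ι) - Lat.sec π hπ (t : Lat G₀ ι))
    abel
  -- the traced extension
  let E : Lat G₁ ι →+ C₁ := ∑ q : G₁ ⧸ π.ker, (DistribSMul.toAddMonoidHom C₁ q.out).comp
    (Φ.comp (DistribSMul.toAddMonoidHom (Lat G₁ ι) q.out⁻¹))
  have hsplit : pullHom π ε j f.1 = E.comp (relUp π ε).subtype +
      pullHom π ε j (normOn hε.isStable_ker η') +
      pullHom π ε j (normOn hε.isStable_ker (Y₁'.comp ε.ker.subtype)) := by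
    rw [add_assoc, ← map_add, ← normOn_add, ← trHom_pullHom hε _ hπ hL.map_smul, ← hψη, ← hφ,
      normOn_eq_sum_left hS π.ker]
    have e : normOn hSV φ = Φ.comp (relUp π ε).subtype + ψ := by rw [hψ', add_sub_cancel]
    ext1 s
    simp only [trHom_apply, E, AddMonoidHom.add_apply, AddMonoidHom.finsetSum_apply,
      AddMonoidHom.comp_apply, AddSubgroup.coe_subtype, DistribSMul.toAddMonoidHom_apply,
      conjOn_apply, e, smul_add, Finset.sum_add_distrib, coe_smulS]
  have hEeq : ∀ (g : G₁) x, E (g • x) = g • E x := by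
    have e : ∀ x, E x = ∑ q : G₁ ⧸ π.ker, q.out • Φ (q.out⁻¹ • x) := fun x => by
      simp only [E, AddMonoidHom.finsetSum_apply]
      rfl
    intro g x
    rw [e, e, Finset.smul_sum]
    refine (Fintype.sum_equiv (MulAction.toPerm g) _ _ fun q => ?_).symm
    obtain ⟨h, hh⟩ := QuotientGroup.mk_out_eq_mul π.ker (g * q.out)
    rw [MulAction.toPerm_apply, show (g • q : G₁ ⧸ π.ker) = ((g * q.out : G₁) : G₁ ⧸ π.ker) from
      (MulAction.Quotient.coe_smul_out π.ker g q).symm, hh, mul_inv_rev, mul_smul (h : G₁)⁻¹, mul_inv_rev, mul_smul q.out⁻¹, inv_smul_smul,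
      show (h : G₁)⁻¹ • q.out⁻¹ • x = h⁻¹ • q.out⁻¹ • x from rfl, hΦ, ← mul_smul g,
      show h⁻¹ • Φ (q.out⁻¹ • x) = (h : G₁)⁻¹ • Φ (q.out⁻¹ • x) from rfl, mul_smul (g * q.out),
      smul_inv_smul]
  have hEK : ∀ k : (Lat.pr π (ι := ι)).ker, E (k : Lat G₁ ι) = 0 := fun k => by
    have e := DFunLike.congr_fun hsplit (AddSubgroup.inclusion ker_pr_le k)
    simp only [AddMonoidHom.add_apply, AddMonoidHom.comp_apply, pullHom_vanish, add_zero] at e
    exact e.symm
  have hEfix : ∀ x, ∀ n ∈ π.ker, n • E x = E x := fun x n hn => by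
    rw [← hEeq, ← sub_eq_zero, ← map_sub]
    exact hEK ⟨_, smul_sub_mem_ker_pr hn x⟩
  choose Y₀ hY₀ using fun x : Lat G₀ ι => hL.exists_of_fixed _ (hEfix (Lat.sec π hπ x) )
  let Y₀' : Lat G₀ ι →+ C₀ := AddMonoidHom.mk' Y₀ fun x y => hL.injective (by
    rw [map_add j, hY₀, hY₀, hY₀, map_add, map_add])
  have hY₀eq : ∀ (g : G₀) x, Y₀' (g • x) = g • Y₀' x := fun g x => hL.injective (by
    obtain ⟨g, rfl⟩ := hπ g
    show j (Y₀ (π g • x)) = j (π g • Y₀ x)
    rw [hL.map_smul, hY₀, hY₀, ← hEeq, ← sub_eq_zero, ← map_sub]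
    refine hEK ⟨_, ?_⟩
    rw [AddMonoidHom.mem_ker, map_sub, Lat.pr_smul, Lat.pr_sec, Lat.pr_sec, sub_self])
  refine ⟨Y₀' + avgHom (H := G₀) Y₁', η', fun g x => ?_, fun s => ⟨_, (hη s).symm⟩, ?_⟩
  · rw [AddMonoidHom.add_apply, AddMonoidHom.add_apply, smul_add, hY₀eq, avgHom_smul]
  · ext s
    refine hL.injective ?_
    have e := DFunLike.congr_fun hsplit (secS π ε hπ s)
    simp only [AddMonoidHom.add_apply, pullHom_apply, prS_secS, AddMonoidHom.comp_apply] at e
    rw [e]
    simp only [AddMonoidHom.add_apply, AddMonoidHom.comp_apply, AddSubgroup.coe_subtype, map_add,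
      normOn_apply, avgHom_apply, coe_smulS,
      map_sum]
    rw [show j (Y₀' (s : Lat G₀ ι)) = E (secS π ε hπ s : Lat G₁ ι) from hY₀ _]
    abel

end

end Fermat.Agent.CFT
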