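import Fermat.Agent.CFT.Coh.Basic

/-!
# The splitting module of a fundamental class

Normalised cocycles, the predicate `IsClassFormation` at the `p`-subgroups, the splitting module
`Split u`, and its cohomological triviality at `p`-subgroups (`Split.h1Zero`, `Split.h2Zero`,
`Split.norm_props`).
-/

set_option autoImplicit false
set_option linter.unusedSectionVars false
set_option linter.style.haveILetI false

noncomputable section

namespace Fermat.Agent.CFT

open groupCohomology

section InducedTwo

variable {G : Type*} [Group G] {A : Type*} [AddCommGroup A] [DistribMulAction G A]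

theorem IsInduced.h2Zero [Fintype G] (h : IsInduced G A) : H2Zero G A := by
  obtain ⟨T, hT⟩ := h
  intro c hc
  refine ⟨fun g => ∑ y : G, y • T (y⁻¹ • c (g, g⁻¹ * y)), fun g h => ?_⟩
  have key : g • ∑ y : G, y • T (y⁻¹ • c (h, h⁻¹ * y)) =
      ∑ y : G, y • T (y⁻¹ • (c (g * h, (g * h)⁻¹ * y) + c (g, h) - c (g, g⁻¹ * y))) := by
    simp only [Finset.smul_sum, smul_smul]
    refine Fintype.sum_equiv (Equiv.mulLeft g) _ _ fun y => ?_
    show (g * y) • T (y⁻¹ • c (h, h⁻¹ * y)) =
      (g * y) • T ((g * y)⁻¹ • (c (g * h, (g * h)⁻¹ * (g * y)) + c (g, h) - c (g, g⁻¹ * (g * y))))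
    have e1 : (g * h)⁻¹ * (g * y) = h⁻¹ * y := by simp [mul_assoc]
    have e2 : c (g * h, h⁻¹ * y) + c (g, h) - c (g, y) = g • c (h, h⁻¹ * y) := by
      rw [hc g h (h⁻¹ * y), mul_inv_cancel_left, add_sub_cancel_right]
    rw [e1, inv_mul_cancel_left, e2, smul_smul, mul_inv_rev, mul_assoc, inv_mul_cancel, mul_one]
  rw [key]
  simp only [smul_sub, smul_add, map_sub, map_add, Finset.sum_sub_distrib, Finset.sum_add_distrib,
    hT (c (g, h))]
  abel

/-- Functions on a finite group form an induced module for every subgroup. -/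
theorem isInduced_functions (G : Type*) [Group G] (B : Type*) [AddCommGroup B]
    (H : Subgroup G) [Fintype H] [DistribMulAction H (G → B)]
    (hact : ∀ (h : H) (f : G → B) (x : G), (h • f) x = f ((h : G)⁻¹ * x)) :
    IsInduced H (G → B) := by
  classical
  let rep : G → G := fun x => (Quotient.mk (QuotientGroup.rightRel H) x).out
  have hrep_mul : ∀ (h : H) (x : G), rep ((h : G) * x) = rep x := fun h x =>
    congr_arg Quotient.out (Quotient.sound (QuotientGroup.rightRel_apply.mpr (by simp)))
  have hrep : ∀ x : G, x * (rep x)⁻¹ ∈ H := fun x =>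
    QuotientGroup.rightRel_apply.mp
      (Quotient.mk_out (s := QuotientGroup.rightRel H) x)
  refine ⟨AddMonoidHom.mk' (fun f x => if x = rep x then f x else 0) fun f f' => ?_, fun f => ?_⟩
  · funext x
    show (if x = rep x then (f + f') x else 0) =
      (if x = rep x then f x else 0) + (if x = rep x then f' x else 0)
    split_ifs <;> simp
  · funext x
    rw [Finset.sum_apply]
    simp only [hact, AddMonoidHom.mk'_apply, Subgroup.coe_inv, inv_inv]
    rw [Finset.sum_eq_single (⟨x * (rep x)⁻¹, hrep x⟩ : H)]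
    · have e1 : ((⟨x * (rep x)⁻¹, hrep x⟩ : H) : G)⁻¹ * x = rep x := by simp [mul_assoc]
      rw [e1]
      have e2 : rep (rep x) = rep x := by
        conv_rhs => rw [← hrep_mul ⟨x * (rep x)⁻¹, hrep x⟩⁻¹ x]
        simp [mul_assoc]
      rw [if_pos e2.symm]
      simp [mul_assoc]
    · intro h _ hne
      refine if_neg fun e => hne (Subtype.ext ?_)
      have e2 : rep ((h : G)⁻¹ * x) = rep x := by
        simpa using hrep_mul h⁻¹ x
      rw [e2] at e
      show (h : G) = x * (rep x)⁻¹
      rw [← e]; simp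
    · simp

end InducedTwo

/-- A normalised `2`-cocycle. -/
structure NormCocycle (G C : Type*) [Group G] [AddCommGroup C] [DistribMulAction G C] where
  /-- The underlying function. -/
  toFun : G × G → C
  isCocycle : IsCocycle₂ toFun
  one_left : ∀ g, toFun (1, g) = 0

variable {G C : Type*} [Group G] [Fintype G] [AddCommGroup C] [DistribMulAction G C]

theorem NormCocycle.one_right (u : NormCocycle G C) (g : G) : u.toFun (g, 1) = 0 := by
  rw [map_one_snd_of_isCocycle₂ u.isCocycle, u.one_left, smul_zero]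

/-- The fundamental class hypotheses at the `p`-subgroups. -/
structure IsClassFormation (p : ℕ) (u : NormCocycle G C) : Prop where
  h1 : ∀ H : Subgroup G, IsPGroup p H → H1Zero H C
  generates : ∀ H : Subgroup G, IsPGroup p H → ∀ c : H × H → C, IsCocycle₂ c →
    ∃ k : ℤ, IsCoboundary₂ fun gh : H × H => c gh - k • u.toFun (gh.1, gh.2)
  order : ∀ H : Subgroup G, IsPGroup p H → ∀ k : ℤ,
    IsCoboundary₂ (fun gh : H × H => k • u.toFun (gh.1, gh.2)) → (Nat.card H : ℤ) ∣ k

/-- The augmentation kernel, as functions of sum zero. -/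
def augFun (G : Type*) [Group G] [Fintype G] : AddSubgroup (G → ℤ) where
  carrier := {f | ∑ x, f x = 0}
  add_mem' {f g} hf hg := by
    simp only [Set.mem_ofPred_eq, Pi.add_apply, Finset.sum_add_distrib] at *; omega
  zero_mem' := by simp
  neg_mem' {f} hf := by
    simp only [Set.mem_ofPred_eq, Pi.neg_apply, Finset.sum_neg_distrib] at *; omega

/-- The splitting module of `u`. -/
def Split (_u : NormCocycle G C) : Type _ := C × augFun G

namespace Split

variable {u : NormCocycle G C}

instance : AddCommGroup (Split u) := inferInstanceAs (AddCommGroup (C × augFun G))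

/-- The element with given components. -/
def mk (c : C) (f : augFun G) : Split u := (c, f)

/-- The component in `C`. -/
def fstHom : Split u →+ C := AddMonoidHom.fst C (augFun G)

/-- The component in the augmentation kernel. -/
def sndHom : Split u →+ augFun G := AddMonoidHom.snd C (augFun G)

/-- The inclusion of `C`. -/
def inl : C →+ Split u := AddMonoidHom.inl C (augFun G)

@[simp] theorem fstHom_mk (c : C) (f : augFun G) : fstHom (mk (u := u) c f) = c := rfl
@[simp] theorem sndHom_mk (c : C) (f : augFun G) : sndHom (mk (u := u) c f) = f := rfl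
@[simp] theorem fstHom_inl (c : C) : fstHom (inl (u := u) c) = c := rfl
@[simp] theorem sndHom_inl (c : C) : sndHom (inl (u := u) c) = 0 := rfl

@[ext] theorem ext {x y : Split u} (h1 : fstHom x = fstHom y) (h2 : sndHom x = sndHom y) : x = y :=
  Prod.ext h1 h2

/-- Translation on the augmentation kernel. -/
def shift (g : G) (f : augFun G) : augFun G :=
  ⟨fun x => f.1 (g⁻¹ * x), by
    show ∑ x, f.1 (g⁻¹ * x) = 0
    exact (Fintype.sum_equiv (Equiv.mulLeft g⁻¹) _ f.1 (fun x => rfl)).trans f.2⟩

@[simp] theorem coe_shift (g : G) (f : augFun G) (x : G) : (shift g f).1 x = f.1 (g⁻¹ * x) := rfl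

instance : DistribMulAction G (Split u) where
  smul g x := mk (g • fstHom x + ∑ h, (sndHom x).1 h • u.toFun (g, h)) (shift g (sndHom x))
  one_smul x := by
    refine ext ?_ (Subtype.ext (funext fun y => ?_))
    · show (1 : G) • fstHom x + _ = _
      simp [u.one_left]
    · show (sndHom x).1 (1⁻¹ * y) = _
      simp
  mul_smul a b x := by
    refine ext ?_ (Subtype.ext (funext fun y => ?_))
    · show (a * b) • fstHom x + ∑ h, (sndHom x).1 h • u.toFun (a * b, h) =
        a • (b • fstHom x + ∑ h, (sndHom x).1 h • u.toFun (b, h)) +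
          ∑ h, (shift b (sndHom x)).1 h • u.toFun (a, h)
      have e : ∑ h, (shift b (sndHom x)).1 h • u.toFun (a, h) =
          ∑ h, (sndHom x).1 h • u.toFun (a, b * h) := by
        refine (Fintype.sum_equiv (Equiv.mulLeft b) _ _ fun h => ?_).symm
        show (sndHom x).1 h • u.toFun (a, b * h) =
          (sndHom x).1 (b⁻¹ * (b * h)) • u.toFun (a, b * h)
        rw [inv_mul_cancel_left]
      rw [e, smul_add, smul_smul, add_assoc, Finset.smul_sum]
      congr 1
      have e2 : ∀ h, u.toFun (a * b, h) + u.toFun (a, b) =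
          a • u.toFun (b, h) + u.toFun (a, b * h) := fun h => u.isCocycle a b h
      have e3 : ∑ h, (sndHom x).1 h • u.toFun (a, b) = 0 := by
        rw [← Finset.sum_smul, show ∑ h, (sndHom x).1 h = 0 from (sndHom x).2, zero_smul]
      rw [← add_zero (∑ h, (sndHom x).1 h • u.toFun (a * b, h)), ← e3, ← Finset.sum_add_distrib,
        ← Finset.sum_add_distrib]
      refine Finset.sum_congr rfl fun h _ => ?_
      rw [← smul_add, e2, smul_add, smul_comm a ((sndHom x).1 h)]
    · show (sndHom x).1 ((a * b)⁻¹ * y) = (sndHom x).1 (b⁻¹ * (a⁻¹ * y))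
      rw [mul_inv_rev, mul_assoc]
  smul_zero a := by
    refine ext ?_ (Subtype.ext (funext fun y => ?_))
    · show a • fstHom (0 : Split u) + ∑ h, (sndHom (0 : Split u)).1 h • u.toFun (a, h) = _
      simp
    · show (sndHom (0 : Split u)).1 _ = (sndHom (0 : Split u)).1 y
      simp
  smul_add a x y := by
    refine ext ?_ (Subtype.ext (funext fun z => ?_))
    · show a • fstHom (x + y) + ∑ h, (sndHom (x + y)).1 h • u.toFun (a, h) =
        (a • fstHom x + ∑ h, (sndHom x).1 h • u.toFun (a, h)) +
          (a • fstHom y + ∑ h, (sndHom y).1 h • u.toFun (a, h))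
      simp only [map_add, smul_add, AddSubgroup.coe_add, Pi.add_apply, add_smul,
        Finset.sum_add_distrib]
      abel
    · show (sndHom (x + y)).1 (a⁻¹ * z) = (sndHom x).1 (a⁻¹ * z) + (sndHom y).1 (a⁻¹ * z)
      rw [map_add]; rfl

theorem fstHom_smul (g : G) (x : Split u) :
    fstHom (g • x) = g • fstHom x + ∑ h, (sndHom x).1 h • u.toFun (g, h) := rfl

theorem sndHom_smul (g : G) (x : Split u) : sndHom (g • x) = shift g (sndHom x) := rfl

theorem smul_inl (g : G) (c : C) : g • inl (u := u) c = inl (g • c) := by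
  refine ext ?_ (Subtype.ext (funext fun y => ?_))
  · rw [fstHom_smul]; simp
  · rw [sndHom_smul]; simp

/-- The basis element `[h]`. -/
def basic (h : G) : augFun G := by
  classical
  exact ⟨Pi.single h 1 - Pi.single 1 1, by
    show ∑ x, (Pi.single h 1 - Pi.single 1 1 : G → ℤ) x = 0
    simp⟩

theorem coe_basic (h x : G) :
    (basic h).1 x = (by classical exact (if x = h then 1 else 0) - (if x = 1 then 1 else 0)) := by
  classical
  show (Pi.single h 1 - Pi.single 1 1 : G → ℤ) x = _
  simp [Pi.single_apply]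

/-- The lift `(0, [h])`. -/
def lift (h : G) : Split u := mk 0 (basic h)

theorem smul_lift (g h : G) :
    g • lift (u := u) h = inl (u.toFun (g, h)) + lift (g * h) - lift g := by
  classical
  refine ext ?_ (Subtype.ext (funext fun y => ?_))
  · rw [fstHom_smul, map_sub, map_add]
    simp only [lift, fstHom_mk, sndHom_mk, smul_zero, zero_add, fstHom_inl, sub_zero, add_zero]
    simp only [coe_basic, sub_smul, Finset.sum_sub_distrib, ite_smul, one_smul, zero_smul,
      Finset.sum_ite_eq', Finset.mem_univ, if_true, u.one_right, sub_zero]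
  · rw [sndHom_smul, map_sub, map_add]
    simp only [lift, sndHom_mk, sndHom_inl, zero_add, coe_shift, AddSubgroup.coe_sub, Pi.sub_apply,
      coe_basic, inv_mul_eq_iff_eq_mul, mul_one]
    ring

variable {p : ℕ} [hp : Fact p.Prime]

/-- The action of a subgroup on functions by translation. -/
abbrev funAction (H : Subgroup G) : DistribMulAction H (G → ℤ) where
  smul h f x := f ((h : G)⁻¹ * x)
  one_smul f := funext fun x => show f (((1 : H) : G)⁻¹ * x) = f x by simp
  mul_smul a b f := funext fun x => by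
    show f (((a * b : H) : G)⁻¹ * x) = f ((b : G)⁻¹ * ((a : G)⁻¹ * x))
    simp [mul_assoc]
  smul_zero _ := rfl
  smul_add _ _ _ := rfl

theorem isInduced_fun (H : Subgroup G) :
    letI := funAction H
    letI : Fintype H := Fintype.ofFinite H
    IsInduced H (G → ℤ) :=
  letI := funAction H
  letI : Fintype H := Fintype.ofFinite H
  isInduced_functions G ℤ H fun _ _ _ => rfl

theorem h1Zero (hu : IsClassFormation p u) (H : Subgroup G) (hH : IsPGroup p H) :
    H1Zero H (Split u) := by
  classical
  letI : Fintype H := Fintype.ofFinite H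
  letI := funAction H
  intro c hc
  obtain ⟨φ, hφ⟩ := (isInduced_fun H).h1Zero (fun h => (sndHom (c h)).1) fun g h => by
    show (sndHom (c (g * h))).1 = _
    rw [hc g h, map_add, AddSubgroup.coe_add]
    rfl
  set s := ∑ x, φ x with hs
  let φ' : augFun G := ⟨φ - Pi.single 1 s, by
    show ∑ x, (φ - Pi.single 1 s : G → ℤ) x = 0
    simp [hs]⟩
  let c₁ : H → Split u := fun h => c h - ((h : G) • mk 0 φ' - mk 0 φ')
  have hc₁ : IsCocycle₁ c₁ := fun g h => by
    simp only [c₁, hc g h, Subgroup.coe_mul, mul_smul, smul_sub, Subgroup.smul_def]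
    abel
  have hsnd : ∀ h : H, sndHom (c₁ h) = s • basic (h : G) := fun h => by
    refine Subtype.ext (funext fun x => ?_)
    have := congr_fun (hφ h) x
    have e : ((h • φ : G → ℤ) - φ) x = φ ((h : G)⁻¹ * x) - φ x := rfl
    rw [e] at this
    simp only [c₁, φ', map_sub, sndHom_smul, sndHom_mk, AddSubgroup.coe_sub, Pi.sub_apply,
      coe_shift, ← this, AddSubgroup.coe_zsmul, Pi.smul_apply, coe_basic, Pi.single_apply,
      inv_mul_eq_one, smul_eq_mul, mul_sub, mul_ite, mul_one, mul_zero, eq_comm]
    ring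
  have hfst : ∀ g h : H, fstHom (c₁ (g * h)) =
      (g : G) • fstHom (c₁ h) + s • u.toFun ((g : G), (h : G)) + fstHom (c₁ g) := fun g h => by
    rw [hc₁ g h, map_add]
    congr 1
    show fstHom ((g : G) • c₁ h) = _
    rw [fstHom_smul, hsnd]
    congr 1
    simp only [AddSubgroup.coe_zsmul, Pi.smul_apply, coe_basic, smul_eq_mul, mul_smul, sub_smul,
      smul_sub, Finset.sum_sub_distrib, ite_smul, one_smul, zero_smul, smul_ite, smul_zero,
      Finset.sum_ite_eq', Finset.mem_univ, if_true, u.one_right, sub_zero]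
  obtain ⟨t, ht⟩ := hu.order H hH s ⟨fun h => -fstHom (c₁ h), fun g h => by
    simp only [hfst g h, Subgroup.smul_def, smul_neg]
    abel⟩
  let ψ : augFun G := ⟨fun x => (if x = 1 then s else 0) - (if x ∈ H then t else 0), by
    show ∑ x, ((if x = 1 then s else 0) - (if x ∈ H then t else 0)) = 0
    rw [Finset.sum_sub_distrib, Finset.sum_ite_eq', if_pos (Finset.mem_univ _), ← Finset.sum_filter,
      Finset.sum_const, nsmul_eq_mul, ← Fintype.card_subtype, ht, Nat.card_eq_fintype_card]
    simp⟩
  let c₂ : H → Split u := fun h => c₁ h - ((h : G) • mk 0 ψ - mk 0 ψ)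
  have hc₂ : IsCocycle₁ c₂ := fun g h => by
    simp only [c₂, hc₁ g h, Subgroup.coe_mul, mul_smul, smul_sub, Subgroup.smul_def]
    abel
  have hsnd₂ : ∀ h : H, sndHom (c₂ h) = 0 := fun h => by
    refine Subtype.ext (funext fun x => ?_)
    simp only [c₂, ψ, map_sub, sndHom_smul, sndHom_mk, hsnd, AddSubgroup.coe_sub, Pi.sub_apply,
      coe_shift, AddSubgroup.coe_zsmul, Pi.smul_apply, coe_basic, smul_eq_mul,
      inv_mul_eq_one, AddSubgroup.coe_zero, Pi.zero_apply, mul_sub, mul_ite, mul_one, mul_zero,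
      H.mul_mem_cancel_left (H.inv_mem h.2), eq_comm (a := (h : G))]
    ring
  have hc₂eq : ∀ h, c₂ h = inl (fstHom (c₂ h)) := fun h => ext (by simp) (by simp [hsnd₂ h])
  obtain ⟨y, hy⟩ := hu.h1 H hH (fun h => fstHom (c₂ h)) fun g h => by
    show fstHom (c₂ (g * h)) = (g : G) • fstHom (c₂ h) + fstHom (c₂ g)
    rw [hc₂ g h, map_add]
    congr 1
    show fstHom ((g : G) • c₂ h) = _
    rw [fstHom_smul]
    simp [hsnd₂]
  refine ⟨mk 0 φ' + mk 0 ψ + inl y, fun h => ?_⟩
  show (h : G) • (mk 0 φ' + mk 0 ψ + inl y) - _ = c h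
  have e : c h = c₂ h + ((h : G) • mk 0 ψ - mk 0 ψ) + ((h : G) • mk 0 φ' - mk 0 φ') := by
    simp only [c₂, c₁]; abel
  have hy' : (h : G) • y - y = fstHom (c₂ h) := hy h
  rw [e, hc₂eq h, ← hy', map_sub, ← smul_inl, smul_add, smul_add]
  abel

theorem h2Zero (hu : IsClassFormation p u) (H : Subgroup G) (hH : IsPGroup p H) :
    H2Zero H (Split u) := by
  classical
  letI : Fintype H := Fintype.ofFinite H
  letI := funAction H
  intro c hc
  obtain ⟨B, hB⟩ := (isInduced_fun H).h2Zero (fun gh => (sndHom (c gh)).1) fun g h j => by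
    show (sndHom (c (g * h, j))).1 + (sndHom (c (g, h))).1 = _
    rw [← AddSubgroup.coe_add, ← map_add, hc g h j, map_add, AddSubgroup.coe_add]
    rfl
  have hB0 : ∀ h : H, ∑ x, B h x = 0 := by
    let b : Additive H →+ ℤ := AddMonoidHom.mk' (fun h => ∑ x, B h.toMul x) fun g h => by
      have e := hB g.toMul h.toMul
      have e2 : ∑ x, ((g.toMul • B h.toMul - B (g.toMul * h.toMul) + B g.toMul : G → ℤ)) x = 0 := by
        rw [e]; exact (sndHom (c (g.toMul, h.toMul))).2
      simp only [Pi.add_apply, Pi.sub_apply, Finset.sum_add_distrib, Finset.sum_sub_distrib] at e2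
      have e3 : ∑ x, (g.toMul • B h.toMul : G → ℤ) x = ∑ x, B h.toMul x :=
        Fintype.sum_equiv (Equiv.mulLeft ((g.toMul : H) : G)⁻¹) _ _ fun x => rfl
      rw [e3] at e2
      simp only [toMul_add]
      omega
    intro h
    have h0 : Nat.card H • b (Additive.ofMul h) = 0 := by
      rw [← map_nsmul, ← ofMul_pow, pow_card_eq_one', ofMul_one, map_zero]
    simpa [Nat.card_pos.ne', b] using h0
  let c₁ : H × H → C := fun gh => fstHom (c gh -
    ((gh.1 : G) • mk (u := u) 0 ⟨B gh.2, hB0 _⟩ - mk 0 ⟨B (gh.1 * gh.2), hB0 _⟩ +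
      mk 0 ⟨B gh.1, hB0 _⟩))
  have hc₁ : ∀ g h : H, inl (c₁ (g, h)) = c (g, h) -
      ((g : G) • mk (u := u) 0 ⟨B h, hB0 _⟩ - mk 0 ⟨B (g * h), hB0 _⟩ + mk 0 ⟨B g, hB0 _⟩) := by
    intro g h
    refine ext rfl (Subtype.ext (funext fun x => ?_))
    have := congr_fun (hB g h) x
    simp only [sndHom_inl, map_sub, map_add, sndHom_smul, sndHom_mk, AddSubgroup.coe_sub,
      AddSubgroup.coe_add, AddSubgroup.coe_zero, Pi.zero_apply, Pi.sub_apply, Pi.add_apply,
      coe_shift, ← this]
    show (0 : ℤ) = B h ((g : G)⁻¹ * x) - B (g * h) x + B g x -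
      (B h ((g : G)⁻¹ * x) - B (g * h) x + B g x)
    ring
  have hcoc : IsCocycle₂ c₁ := fun g h j => by
    have hl : Function.Injective (inl (u := u)) := fun x y e => congr_arg fstHom e
    apply hl
    rw [map_add, map_add, show g • c₁ (h, j) = (g : G) • c₁ (h, j) from rfl, ← smul_inl,
      hc₁, hc₁, hc₁, hc₁, smul_sub, smul_add, smul_sub, smul_smul, ← Subgroup.coe_mul]
    have := hc g h j
    rw [show g • c (h, j) = (g : G) • c (h, j) from rfl, ← eq_sub_iff_add_eq] at this
    rw [this, mul_assoc g h j]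
    abel
  obtain ⟨k, y, hy⟩ := hu.generates H hH c₁ hcoc
  refine ⟨fun h => mk 0 ⟨B h, hB0 h⟩ + inl (y h) + k • lift (h : G), fun g h => ?_⟩
  show (g : G) • _ - _ + _ = c (g, h)
  have e := hy g h
  have e1 : c (g, h) = inl (c₁ (g, h)) +
      ((g : G) • mk (u := u) 0 ⟨B h, hB0 _⟩ - mk 0 ⟨B (g * h), hB0 _⟩ + mk 0 ⟨B g, hB0 _⟩) := by
    rw [hc₁]; abel
  have e2 : c₁ (g, h) = (g : G) • y h - y (g * h) + y g + k • u.toFun ((g : G), (h : G)) := by
    rw [show (g : G) • y h = g • y h from rfl, e]
    exact (sub_add_cancel _ _).symm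
  rw [e1, e2, map_add, map_add, map_sub, map_zsmul, ← smul_inl]
  simp only [smul_add, smul_comm (g : G) k, smul_lift, Subgroup.coe_mul, smul_sub]
  abel

/-- Norm properties of the splitting module at `p`-subgroups. -/
theorem norm_props (hu : IsClassFormation p u) (H : Subgroup G) [Fintype H] (hH : IsPGroup p H) :
    NormSurj H (Split u) ∧ NormKer H (Split u) := by
  refine norm_props_of_pGroup hH (fun K => ?_) (fun K => ?_)
  · exact (h1Zero hu _ (hH.to_subgroup K |>.map _)).of_equiv
      (K.equivMapOfInjective H.subtype H.subtype_injective) (fun _ _ => rfl)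
  · exact (h2Zero hu _ (hH.to_subgroup K |>.map _)).of_equiv
      (K.equivMapOfInjective H.subtype H.subtype_injective) (fun _ _ => rfl)

end Split

end Fermat.Agent.CFT
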